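import Fermat.Agent.S55.TateNak43.Main

/-!
# S55 / 11c: convenient constructors for `IsFundamentalCocycle` over `ℤ`

Consumers (class formations) usually know: `H¹(H, C) = 0`, the class `γ_H = res_H [σ]` has
additive order `|H|`, and every class of `H²(H, C)` is an integer multiple of `γ_H`
(or: `|H²(H, C)| ∣ |H|`).  These give the bundle `IsFundamentalCocycle C σ`.
-/

set_option autoImplicit false

open CategoryTheory groupCohomology Limits

noncomputable section

namespace Fermat.Agent.S55.TateNak43

variable {G : Type} [Group G] [Fintype G] (C : Rep ℤ G) (σ : cocycles₂ C)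

/-- the restricted fundamental class `γ_H = res_H [σ] ∈ H²(H, C)`. -/
abbrev fundClass (H : Subgroup G) : groupCohomology (Rep.res H.subtype C) 2 :=
  H2π (Rep.res H.subtype C) (resCocycle C σ H)

lemma fundClass_eq_map (H : Subgroup G) :
    fundClass C σ H
      = (groupCohomology.map H.subtype (𝟙 (Rep.res H.subtype C)) 2).hom (H2π C σ) :=
  (map_H2π_resCocycle C σ H).symm

/-- the module scalar action of `ℤ` on a `ModuleCat ℤ` object is the `zsmul`
(left side: the `Module ℤ` structure of the object; right side: `ZSMul.toSMul`). -/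
lemma modSMul_eq_zsmul {M : ModuleCat ℤ} (a : ℤ) (x : M) :
    @HSMul.hSMul ℤ M M (@instHSMul ℤ M M.isModule.toSMul) a x = a • x :=
  int_smul_eq_zsmul _ a x

/-- `IsFundamentalCocycle` from: `H¹ = 0`, generation by integer multiples, and
`addOrderOf γ_H = |H|`. -/
theorem IsFundamentalCocycle.of_addOrderOf
    (h1 : ∀ H : Subgroup G, IsZero (groupCohomology (Rep.res H.subtype C) 1))
    (hgen : ∀ (H : Subgroup G) (x : groupCohomology (Rep.res H.subtype C) 2),
      ∃ j : ℤ, x = j • fundClass C σ H)
    (hord : ∀ H : Subgroup G, addOrderOf (fundClass C σ H) = Nat.card H) :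
    IsFundamentalCocycle C σ where
  h1 := h1
  hgen H x := by
    obtain ⟨j, hj⟩ := hgen H x
    exact ⟨j, hj.trans (modSMul_eq_zsmul j _).symm⟩
  hord H a ha := by
    have h0 : a • fundClass C σ H = 0 :=
      (modSMul_eq_zsmul a _).symm.trans ha
    have hdvd : ((addOrderOf (fundClass C σ H) : ℕ) : ℤ) ∣ a :=
      (addOrderOf_dvd_iff_zsmul_eq_zero).2 h0
    rw [hord H] at hdvd
    obtain ⟨b, hb⟩ := hdvd
    exact ⟨b, hb⟩

/-- `IsFundamentalCocycle` from: `H¹ = 0`, `|H²(H, C)| ∣ |H|` (finite), and
`addOrderOf γ_H = |H|`. -/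
theorem IsFundamentalCocycle.of_card_dvd
    (h1 : ∀ H : Subgroup G, IsZero (groupCohomology (Rep.res H.subtype C) 1))
    (hfin : ∀ H : Subgroup G, Finite (groupCohomology (Rep.res H.subtype C) 2))
    (hcard : ∀ H : Subgroup G,
      Nat.card (groupCohomology (Rep.res H.subtype C) 2) ∣ Nat.card H)
    (hord : ∀ H : Subgroup G, addOrderOf (fundClass C σ H) = Nat.card H) :
    IsFundamentalCocycle C σ := by
  refine IsFundamentalCocycle.of_addOrderOf C σ h1 (fun H x => ?_) hord
  haveI := hfin H
  -- the cyclic subgroup generated by `γ_H` has `|H|` elements, hence is everything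
  have hz : Nat.card (AddSubgroup.zmultiples (fundClass C σ H)) = Nat.card H := by
    rw [Nat.card_zmultiples, hord H]
  have hle : Nat.card (groupCohomology (Rep.res H.subtype C) 2) ≤ Nat.card H :=
    Nat.le_of_dvd Nat.card_pos (hcard H)
  have htop : AddSubgroup.zmultiples (fundClass C σ H) = ⊤ := by
    apply AddSubgroup.eq_top_of_le_card
    rw [hz]
    exact hle
  have hx : x ∈ AddSubgroup.zmultiples (fundClass C σ H) := by rw [htop]; trivial
  obtain ⟨j, hj⟩ := AddSubgroup.mem_zmultiples_iff.1 hx
  exact ⟨j, hj.symm⟩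

end Fermat.Agent.S55.TateNak43

end
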