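import Fermat.Agent.S55.TateNak43.Split

/-!
# S55 / 11c-TATE-NAKAYAMA, part (T): the splitting module is cohomologically trivial

Inputs from 11a are the two Props `CritStatement` (Nakayama-Tate criterion, `q = 1`) and
`RegularStatement` (`k[G]` is cohomologically trivial).  Everything else is proved here from
Mathlib's low degree long exact sequence.
-/

open CategoryTheory groupCohomology Limits

open scoped Classical

noncomputable section

namespace Fermat.Agent.S55.TateNak43

section LES

variable {k G : Type} [CommRing k] [Group G] {X : ShortComplex (Rep k G)} (hX : X.ShortExact)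

include hX

lemma les_exists_of_map_g_eq_zero (i : ℕ) (x : groupCohomology X.X₂ i)
    (hx : (groupCohomology.map (MonoidHom.id G) X.g i).hom x = 0) :
    ∃ y : groupCohomology X.X₁ i, (groupCohomology.map (MonoidHom.id G) X.f i).hom y = x :=
  (ShortComplex.moduleCat_exact_iff _).1 (mapShortComplex₂_exact hX i) x hx

lemma les_exists_of_δ_eq_zero (i : ℕ) (x : groupCohomology X.X₃ i)
    (hx : (δ hX i (i + 1) rfl).hom x = 0) :
    ∃ y : groupCohomology X.X₂ i, (groupCohomology.map (MonoidHom.id G) X.g i).hom y = x :=
  (ShortComplex.moduleCat_exact_iff _).1 (mapShortComplex₃_exact hX rfl) x hx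

lemma les_exists_of_map_f_eq_zero (i : ℕ) (x : groupCohomology X.X₁ (i + 1))
    (hx : (groupCohomology.map (MonoidHom.id G) X.f (i + 1)).hom x = 0) :
    ∃ y : groupCohomology X.X₃ i, (δ hX i (i + 1) rfl).hom y = x :=
  (ShortComplex.moduleCat_exact_iff _).1 (mapShortComplex₁_exact hX rfl) x hx

lemma les_δ_map_g (i : ℕ) (y : groupCohomology X.X₂ i) :
    (δ hX i (i + 1) rfl).hom ((groupCohomology.map (MonoidHom.id G) X.g i).hom y) = 0 := by
  have := (mapShortComplex₃ hX (i := i) rfl).zero
  exact congr($this y)

lemma les_map_f_δ (i : ℕ) (y : groupCohomology X.X₃ i) :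
    (groupCohomology.map (MonoidHom.id G) X.f (i + 1)).hom ((δ hX i (i + 1) rfl).hom y) = 0 := by
  have := (mapShortComplex₁ hX (i := i) rfl).zero
  exact congr($this y)

end LES

end Fermat.Agent.S55.TateNak43

namespace Fermat.Agent.S55.TateNak43

section delta

variable {k G : Type} [CommRing k] [Group G] [Fintype G]

/-- `u g = e_g - e_1 ∈ I_G`. -/
def augGen (k : Type) [CommRing k] {G : Type} [Group G] [Fintype G] (g : G) :
    augSub k G :=
  ⟨Pi.single g 1 - Pi.single 1 1, by
    rw [mem_augSub]
    simp [Finset.sum_sub_distrib]⟩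

lemma augGen_coe (g : G) : ((augGen k g : augSub k G) : G → k) = Pi.single g 1 - Pi.single 1 1 := rfl

lemma funRepresentation_single (g h : G) (a : k) :
    funRepresentation k G g (Pi.single h a) = Pi.single (g * h) a := by
  ext x
  simp only [funRepresentation_apply, Pi.single_apply]
  congr 1
  rw [inv_mul_eq_iff_eq_mul]

lemma augRepresentation_augGen (g h : G) :
    augRepresentation k G g (augGen k h) = augGen k (g * h) - augGen k g := by
  apply Subtype.ext
  simp only [augRepresentation_coe, AddSubgroupClass.coe_sub, augGen_coe, map_sub,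
    funRepresentation_single, mul_one]
  abel

variable (C : Rep k G) (σ : cocycles₂ C)

lemma twist_augGen (g h : G) :
    twist C σ g (augGen k h) = (σ : G × G → C.V) (g, h) - (σ : G × G → C.V) (g, 1) := by
  rw [twist_apply]
  simp only [augGen_coe, Pi.sub_apply, sub_smul, Finset.sum_sub_distrib, Pi.single_apply,
    ite_smul, one_smul, zero_smul, Finset.sum_ite_eq', Finset.mem_univ, if_true]

end delta

end Fermat.Agent.S55.TateNak43

namespace Fermat.Agent.S55.TateNak43

section delta2

variable {k G : Type} [CommRing k] [Group G] [Fintype G]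
variable (C : Rep k G) (σ : cocycles₂ C) (H : Subgroup G)

/-- restriction of the 2-cocycle to `H`. -/
def resCocycle : cocycles₂ (Rep.res H.subtype C) :=
  mapCocycles₂ H.subtype (𝟙 (Rep.res H.subtype C)) σ

lemma resCocycle_apply (g h : H) :
    (resCocycle C σ H : H × H → C.V) (g, h) = (σ : G × G → C.V) ((g : G), (h : G)) := rfl

lemma map_H2π_resCocycle :
    (groupCohomology.map H.subtype (𝟙 (Rep.res H.subtype C)) 2).hom (H2π C σ)
      = H2π (Rep.res H.subtype C) (resCocycle C σ H) :=
  H2π_comp_map_apply H.subtype (𝟙 (Rep.res H.subtype C)) σ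

/-- the restricted splitting sequence. -/
abbrev splitSeqRes : ShortComplex (Rep k H) :=
  (splitSeq C σ).map (Rep.resFunctor H.subtype)

lemma shortExact_splitSeqRes : (splitSeqRes C σ H).ShortExact :=
  (Rep.shortExact_res H.subtype).2 (shortExact_splitSeq C σ)

/-- the restricted augmentation sequence. -/
abbrev augSeqRes (k : Type) [CommRing k] {G : Type} [Group G] [Fintype G]
    (H : Subgroup G) : ShortComplex (Rep k H) :=
  (augSeq k G).map (Rep.resFunctor H.subtype)

lemma shortExact_augSeqRes : (augSeqRes k H).ShortExact :=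
  (Rep.shortExact_res H.subtype).2 (shortExact_augSeq k G)

/-- the 1-cocycle `g ↦ e_g - e_1` of `H` with values in `I_G`. -/
def augCocycle : cocycles₁ (Rep.res H.subtype (augRep k G)) :=
  ⟨fun g => augGen k (g : G), (mem_cocycles₁_iff _).2 (fun g h => by
    change augGen k ((g : G) * (h : G)) = augRepresentation k G (g : G) (augGen k (h : G)) + augGen k (g : G)
    rw [augRepresentation_augGen]
    abel)⟩

end delta2

end Fermat.Agent.S55.TateNak43

namespace Fermat.Agent.S55.TateNak43

section delta3

variable {k G : Type} [CommRing k] [Group G] [Fintype G]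
variable (C : Rep k G) (σ : cocycles₂ C) (H : Subgroup G)

/-- the lift `g ↦ (σ(1,1), e_g - e_1)` of `augCocycle` to the splitting module. -/
def splitLift (g : H) : C.V × augSub k G := ((σ : G × G → C.V) (1, 1), augGen k (g : G))

lemma splitAct_splitLift (g h : H) :
    splitAct C σ (g : G) (splitLift C σ H h) - splitLift C σ H (g * h) + splitLift C σ H g
      = ((σ : G × G → C.V) ((g : G), (h : G)), 0) := by
  simp only [splitLift, splitAct_apply, twist_augGen, augRepresentation_augGen,
    cocycles₂_map_one_snd σ (g : G)]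
  ext1
  · simp
  · simp

theorem delta_augCocycle :
    (δ (shortExact_splitSeqRes C σ H) 1 2 rfl).hom
        (H1π (Rep.res H.subtype (augRep k G)) (augCocycle H))
      = H2π (Rep.res H.subtype C) (resCocycle C σ H) := by
  have hy : (splitSeqRes C σ H).g.hom ∘ (splitLift C σ H) = (augCocycle (k := k) H : H → _) := by
    funext g
    rfl
  have hx : (splitSeqRes C σ H).f.hom ∘ (resCocycle C σ H : H × H → C.V)
      = d₁₂ (splitSeqRes C σ H).X₂ (splitLift C σ H) := by
    funext ⟨g, h⟩
    exact (splitAct_splitLift C σ H g h).symm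
  have := δ₁_apply (shortExact_splitSeqRes C σ H) (augCocycle (k := k) H) (splitLift C σ H) hy
    (resCocycle C σ H : H × H → C.V) hx
  exact this

end delta3

end Fermat.Agent.S55.TateNak43

namespace Fermat.Agent.S55.TateNak43

section delta0

variable {k G : Type} [CommRing k] [Group G] [Fintype G]
variable (H : Subgroup G)

/-- an element of `k` as an `H`-invariant of the trivial representation. -/
def trivInv (a : k) : (Rep.res H.subtype (Rep.trivial k G k)).ρ.invariants :=
  ⟨a, fun _ => rfl⟩

theorem delta_trivInv (a : k) :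
    (δ (shortExact_augSeqRes (k := k) H) 0 1 rfl).hom
        ((H0Iso (Rep.res H.subtype (Rep.trivial k G k))).inv (trivInv H a))
      = a • H1π (Rep.res H.subtype (augRep k G)) (augCocycle H) := by
  have hy : (augSeqRes k H).g.hom (Pi.single (1 : G) a : G → k) = (trivInv H a : k) := by
    change (augmentation k G).hom (Pi.single (1 : G) a : G → k) = a
    rw [augmentation_apply]
    simp
  have hx : (augSeqRes k H).f.hom ∘ (fun g : H => a • (augCocycle (k := k) H : H → _) g)
      = d₀₁ (augSeqRes k H).X₂ (Pi.single (1 : G) a : G → k) := by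
    funext g
    change ((a • augGen k (g : G) : augSub k G) : G → k)
      = funRepresentation k G (g : G) (Pi.single (1 : G) a) - Pi.single (1 : G) a
    rw [funRepresentation_single, mul_one]
    ext x
    simp only [Submodule.coe_smul, augGen_coe, Pi.smul_apply, Pi.sub_apply, Pi.single_apply,
      smul_eq_mul]
    split_ifs <;> simp
  have := δ₀_apply (shortExact_augSeqRes (k := k) H) (trivInv H a) (Pi.single (1 : G) a : G → k) hy
    (fun g : H => a • (augCocycle (k := k) H : H → _) g) hx
  refine this.trans ?_
  rw [← map_smul]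
  rfl

end delta0

end Fermat.Agent.S55.TateNak43


namespace Fermat.Agent.S55.TateNak43

section interface

variable {k G : Type} [CommRing k] [Group G] [Fintype G]

/-- Tate cohomology of the restriction to a subgroup (with the classical `Fintype` instance). -/
abbrev tateSub (A : Rep k G) (H : Subgroup G) (n : ℤ) : ModuleCat k :=
  haveI : Fintype H := Fintype.ofFinite H
  tateCohomology (Rep.res H.subtype A) n

/-- cohomological triviality: all Tate cohomology groups of all subgroups vanish. -/
def CohTrivial (A : Rep k G) : Prop :=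
  ∀ (H : Subgroup G) (n : ℤ), IsZero (tateSub A H n)

variable (k G) in
/-- (input from 11a) the Nakayama-Tate criterion with `q = 1`. -/
def CritStatement : Prop :=
  ∀ A : Rep k G,
    (∀ H : Subgroup G, IsZero (groupCohomology (Rep.res H.subtype A) 1) ∧
      IsZero (groupCohomology (Rep.res H.subtype A) 2)) → CohTrivial A

variable (k G) in
/-- (input from 11a) the regular representation is cohomologically trivial. -/
def RegularStatement : Prop := CohTrivial (funRep k G)

lemma CohTrivial.isZero_groupCohomology {A : Rep k G} (hA : CohTrivial A) (H : Subgroup G)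
    (n : ℕ) [NeZero n] : IsZero (groupCohomology (Rep.res H.subtype A) n) := by
  have e := (@TateCohomology.isoGroupCohomology k H _ _ (Fintype.ofFinite H) n _).app
    (Rep.res H.subtype A)
  exact IsZero.of_iso (hA H (n : ℤ)) e.symm

lemma CohTrivial.of_iso {A B : Rep k G} (hA : CohTrivial A) (e : A ≅ B) : CohTrivial B := by
  intro H n
  have e' := (@tateCohomologyFunctor k H _ _ (Fintype.ofFinite H) n).mapIso
    ((Rep.resFunctor H.subtype).mapIso e)
  exact IsZero.of_iso (hA H n) e'.symm

end interface

section triv

variable {k G : Type} [CommRing k] [Group G] [Fintype G]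

lemma eq_zero_of_isZero {M : ModuleCat k} (h : IsZero M) (x : M) : x = 0 :=
  haveI := ModuleCat.subsingleton_of_isZero h
  Subsingleton.elim _ _

variable (hreg : RegularStatement k G)

include hreg

/-- `H¹(H, I_G)` is generated by the class of `g ↦ e_g - e_1`. -/
theorem H1_aug_generated (H : Subgroup G)
    (x : groupCohomology (Rep.res H.subtype (augRep k G)) 1) :
    ∃ a : k, x = a • H1π (Rep.res H.subtype (augRep k G)) (augCocycle H) := by
  have h0 : (groupCohomology.map (MonoidHom.id H) (augSeqRes k H).f (0 + 1)).hom x = 0 :=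
    eq_zero_of_isZero (CohTrivial.isZero_groupCohomology hreg H 1) _
  obtain ⟨y, hy⟩ := les_exists_of_map_f_eq_zero (shortExact_augSeqRes (k := k) H) 0 x h0
  induction y using H0_induction_on with
  | h z =>
    refine ⟨(show k from z.1), ?_⟩
    rw [← hy]
    exact delta_trivInv (k := k) H (show k from z.1)

/-- `H²(H, I_G) = 0` as soon as `H¹(H, k) = 0`. -/
theorem isZero_H2_aug (H : Subgroup G)
    (hk : IsZero (groupCohomology (Rep.res H.subtype (Rep.trivial k G k)) 1)) :
    IsZero (groupCohomology (Rep.res H.subtype (augRep k G)) 2) := by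
  rw [ModuleCat.isZero_iff_subsingleton]
  refine ⟨fun x y => ?_⟩
  suffices h : ∀ x : groupCohomology (Rep.res H.subtype (augRep k G)) 2, x = 0 by rw [h x, h y]
  intro x
  have h0 : (groupCohomology.map (MonoidHom.id H) (augSeqRes k H).f (1 + 1)).hom x = 0 :=
    eq_zero_of_isZero (CohTrivial.isZero_groupCohomology hreg H 2) _
  obtain ⟨y, hy⟩ := les_exists_of_map_f_eq_zero (shortExact_augSeqRes (k := k) H) 1 x h0
  have hy0 : y = 0 := eq_zero_of_isZero hk y
  rw [← hy, hy0]
  exact map_zero _

omit hreg in
/-- `|H|` kills the class of `g ↦ e_g - e_1`. -/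
theorem card_smul_augClass (H : Subgroup G) :
    (Nat.card H : k) • H1π (Rep.res H.subtype (augRep k G)) (augCocycle H) = 0 := by
  -- the indicator function of `H` is an `H`-invariant of `k[G]` with augmentation `|H|`
  let ind : G → k := fun x => if x ∈ H then 1 else 0
  have hind : ind ∈ (Rep.res H.subtype (funRep k G)).ρ.invariants := by
    intro h
    funext x
    change ind ((h : G)⁻¹ * x) = ind x
    simp only [ind]
    congr 1
    exact propext (H.mul_mem_cancel_left (H.inv_mem h.2))
  have hsum : ∑ x, ind x = (Nat.card H : k) := by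
    simp only [ind, Finset.sum_boole]
    congr 1
    rw [Nat.card_eq_fintype_card, Fintype.card_subtype]
  have hmap : (groupCohomology.map (MonoidHom.id H) (augSeqRes k H).g 0).hom
      ((H0Iso (Rep.res H.subtype (funRep k G))).inv ⟨ind, hind⟩)
      = (H0Iso (Rep.res H.subtype (Rep.trivial k G k))).inv (trivInv H (Nat.card H : k)) := by
    apply (ModuleCat.mono_iff_injective _).1
      (inferInstance : Mono (H0Iso (Rep.res H.subtype (Rep.trivial k G k))).hom)
    have h1 := map_id_comp_H0Iso_hom_apply (augSeqRes k H).g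
      ((H0Iso (Rep.res H.subtype (funRep k G))).inv ⟨ind, hind⟩)
    have h2 : (H0Iso (Rep.res H.subtype (funRep k G))).hom
        ((H0Iso (Rep.res H.subtype (funRep k G))).inv ⟨ind, hind⟩) = ⟨ind, hind⟩ :=
      Iso.inv_hom_id_apply _ _
    have h3 : (H0Iso (Rep.res H.subtype (Rep.trivial k G k))).hom
        ((H0Iso (Rep.res H.subtype (Rep.trivial k G k))).inv (trivInv H (Nat.card H : k)))
          = trivInv H (Nat.card H : k) :=
      Iso.inv_hom_id_apply _ _
    refine h1.trans ?_
    rw [h3]
    erw [h2]
    apply Subtype.ext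
    change (augmentation k G).hom ind = (Nat.card H : k)
    rw [augmentation_apply, hsum]
  rw [← delta_trivInv, ← hmap]
  exact les_δ_map_g (shortExact_augSeqRes (k := k) H) 0 _

variable (C : Rep k G) (σ : cocycles₂ C)

/-- `H²(H, C(σ)) = 0` if `H²(H, C)` is generated by the restriction of `σ`
(and `H¹(H, k) = 0`). -/
theorem isZero_H2_split (H : Subgroup G)
    (hk : IsZero (groupCohomology (Rep.res H.subtype (Rep.trivial k G k)) 1))
    (hgen : ∀ x : groupCohomology (Rep.res H.subtype C) 2,
      ∃ a : k, x = a • H2π (Rep.res H.subtype C) (resCocycle C σ H)) :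
    IsZero (groupCohomology (Rep.res H.subtype (split C σ)) 2) := by
  rw [ModuleCat.isZero_iff_subsingleton]
  refine ⟨fun x y => ?_⟩
  suffices h : ∀ x : groupCohomology (Rep.res H.subtype (split C σ)) 2, x = 0 by rw [h x, h y]
  intro x
  have h0 : (groupCohomology.map (MonoidHom.id H) (splitSeqRes C σ H).g 2).hom x = 0 :=
    eq_zero_of_isZero (isZero_H2_aug hreg H hk) _
  obtain ⟨c, hc⟩ := les_exists_of_map_g_eq_zero (shortExact_splitSeqRes C σ H) 2 x h0
  obtain ⟨a, ha⟩ := hgen c
  have hδ : c = (δ (shortExact_splitSeqRes C σ H) 1 (1 + 1) rfl).hom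
      (a • H1π (Rep.res H.subtype (augRep k G)) (augCocycle H)) :=
    ha.trans ((congrArg (a • ·) (delta_augCocycle C σ H).symm).trans
      (map_smul (δ (shortExact_splitSeqRes C σ H) 1 (1 + 1) rfl).hom a _).symm)
  rw [← hc, hδ]
  exact les_map_f_δ (shortExact_splitSeqRes C σ H) 1 _

/-- `H¹(H, C(σ)) = 0` if `H¹(H, C) = 0` and the restriction of `σ` has order (at least) `|H|`. -/
theorem isZero_H1_split (H : Subgroup G)
    (h1 : IsZero (groupCohomology (Rep.res H.subtype C) 1))
    (hord : ∀ a : k, a • H2π (Rep.res H.subtype C) (resCocycle C σ H) = 0 →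
      ∃ b : k, a = (Nat.card H : k) * b) :
    IsZero (groupCohomology (Rep.res H.subtype (split C σ)) 1) := by
  rw [ModuleCat.isZero_iff_subsingleton]
  refine ⟨fun x y => ?_⟩
  suffices h : ∀ x : groupCohomology (Rep.res H.subtype (split C σ)) 1, x = 0 by rw [h x, h y]
  intro x
  -- the image of `x` in `H¹(H, I_G)` is `a • [z]`
  obtain ⟨a, ha⟩ := H1_aug_generated hreg H
    ((groupCohomology.map (MonoidHom.id H) (splitSeqRes C σ H).g 1).hom x)
  -- `δ` of it vanishes, so `a • [σ_H] = 0`
  have hδ := les_δ_map_g (shortExact_splitSeqRes C σ H) 1 x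
  have ha' : a • H2π (Rep.res H.subtype C) (resCocycle C σ H) = 0 :=
    (congrArg (a • ·) (delta_augCocycle C σ H).symm).trans
      ((map_smul (δ (shortExact_splitSeqRes C σ H) 1 (1 + 1) rfl).hom a _).symm.trans
        ((congrArg (δ (shortExact_splitSeqRes C σ H) 1 (1 + 1) rfl).hom ha.symm).trans hδ))
  obtain ⟨b, hb⟩ := hord a ha'
  have h0 : (groupCohomology.map (MonoidHom.id H) (splitSeqRes C σ H).g 1).hom x = 0 := by
    refine ha.trans ?_
    rw [hb, mul_comm, mul_smul, card_smul_augClass H]
    exact smul_zero _
  obtain ⟨c, hc⟩ := les_exists_of_map_g_eq_zero (shortExact_splitSeqRes C σ H) 1 x h0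
  have hc0 : c = 0 := eq_zero_of_isZero h1 c
  rw [← hc, hc0]
  exact map_zero _

/-- **The splitting module is cohomologically trivial.** -/
theorem cohTrivial_split (hcrit : CritStatement k G)
    (hk : ∀ H : Subgroup G, IsZero (groupCohomology (Rep.res H.subtype (Rep.trivial k G k)) 1))
    (h1 : ∀ H : Subgroup G, IsZero (groupCohomology (Rep.res H.subtype C) 1))
    (hgen : ∀ (H : Subgroup G) (x : groupCohomology (Rep.res H.subtype C) 2),
      ∃ a : k, x = a • H2π (Rep.res H.subtype C) (resCocycle C σ H))
    (hord : ∀ (H : Subgroup G) (a : k),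
      a • H2π (Rep.res H.subtype C) (resCocycle C σ H) = 0 → ∃ b : k, a = (Nat.card H : k) * b) :
    CohTrivial (split C σ) :=
  hcrit (split C σ) fun H =>
    ⟨isZero_H1_split hreg C σ H (h1 H) (hord H), isZero_H2_split hreg C σ H (hk H) (hgen H)⟩

end triv

end Fermat.Agent.S55.TateNak43

end
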