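import Fermat.Agent.S55.TateNak43.CritWire
import Fermat.Agent.S55.TateCrit45.Top
import Fermat.Agent.S55.TateCT12.Wire
import Fermat.Agent.S55.TateCT12.RelProj

/-!
# S55 / 11a+11c: Tate's theorem from the single remaining input `PGroupCore ℤ d`

All other inputs are landed theorems: `T1` (helper12 `isZero_tate_of_relProj'`),
`cardKills`, `sylowDetect` (helper45 `TateCrit45/Top`), `regularStatement` (helper12 `Wire`).
-/

set_option autoImplicit false

open CategoryTheory Limits

noncomputable section

namespace Fermat.Agent.S55.TateNak43.Final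

open Fermat.Agent.S55.TateCrit45 Fermat.Agent.S55.TateNak43.CritFree
  Fermat.Agent.S55.TateNak43.CritWire

/-- relatively projective modules are Tate-acyclic (helper12). -/
theorem t1Statement : T1Statement ℤ := by
  intro H _ _ X hX n
  obtain ⟨π, hπ⟩ := hX
  exact Fermat.Agent.S55.TateCT12.isZero_tate_of_relProj' X π hπ n

/-- the homological form of the `p`-group core (helper45's `isRelProj_of_H1_eq_zero`)
is `PGroupCore ℤ (-2)`. -/
theorem pGroupCore_of_homological
    (h : ∀ (p : ℕ) [Fact p.Prime] (P : Type) [Group P] [Fintype P], IsPGroup p P →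
      ∀ M : Rep.{0} ℤ P, (∀ x : M.V, p • x = 0) → IsZero (groupHomology M 1) → IsRelProj M.ρ) :
    PGroupCore ℤ (-2) := by
  intro p _ P _ _ hP M hp hM
  refine h p P hP M hp ?_
  exact IsZero.of_iso hM
    ((TateCohomology.isoGroupHomology (R := ℤ) (G := P) (-2) 1 rfl).app M).symm

/-- the cohomological form of the `p`-group core (degree one) is `PGroupCore ℤ 1`. -/
theorem pGroupCore_of_cohomological
    (h : ∀ (p : ℕ) [Fact p.Prime] (P : Type) [Group P] [Fintype P], IsPGroup p P →
      ∀ M : Rep.{0} ℤ P, (∀ x : M.V, p • x = 0) → IsZero (groupCohomology M 1) → IsRelProj M.ρ) :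
    PGroupCore ℤ 1 := by
  intro p _ P _ _ hP M hp hM
  refine h p P hP M hp ?_
  exact IsZero.of_iso hM
    ((TateCohomology.isoGroupCohomology (R := ℤ) (G := P) 1).app M).symm

variable {G : Type} [Group G] [Fintype G]

/-- the Nakayama-Tate criterion from the `p`-group core alone. -/
theorem critStatement_of_pGroupCore {d : ℤ} (hPG : PGroupCore ℤ d) :
    Fermat.Agent.S55.TateNak43.CritStatement ℤ G :=
  critStatement t1Statement hPG (cardKills t1Statement) (sylowDetect t1Statement)

/-- the twin criterion (any degree `q`) from the `p`-group core alone. -/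
theorem cohTrivial_of_twin_of_pGroupCore {d : ℤ} (hPG : PGroupCore ℤ d) (q : ℤ)
    (A : Rep.{0} ℤ G) (h : Twin A q) : CohTrivial A :=
  cohTrivial_of_twin t1Statement hPG (cardKills t1Statement) (sylowDetect t1Statement)
    (fun p _ c hc => int_torsionFree p c hc) q A h

variable (C : Rep ℤ G) (σ : groupCohomology.cocycles₂ C)
  (hσ : Fermat.Agent.S55.TateNak43.IsFundamentalCocycle C σ)

/-- **Tate's theorem**, from the `p`-group core alone. -/
def tateIsoFinal {d : ℤ} (hPG : PGroupCore ℤ d) (H : Subgroup G) (n m : ℤ) (hm : m = n + 2) :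
    Fermat.Agent.S55.TateNak43.tateSub (Rep.trivial ℤ G ℤ) H n
      ≅ Fermat.Agent.S55.TateNak43.tateSub C H m :=
  Fermat.Agent.S55.TateNak43.tateIsoInt C σ (critStatement_of_pGroupCore hPG)
    (Fermat.Agent.S55.TateCT12.regularStatement G) hσ H n m hm

/-- **Abstract reciprocity**, from the `p`-group core alone. -/
def reciprocityEquivFinal {d : ℤ} (hPG : PGroupCore ℤ d) (H : Subgroup G) :
    (Fermat.Agent.S55.TateNak43.invSub C H ⧸ Fermat.Agent.S55.TateNak43.normSub C H)
      ≃+ Additive (Abelianization H) :=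
  Fermat.Agent.S55.TateNak43.reciprocityEquiv C σ (critStatement_of_pGroupCore hPG)
    (Fermat.Agent.S55.TateCT12.regularStatement G) hσ H

include hσ in
/-- `H³(H, C) = 0`, from the `p`-group core alone. -/
theorem isZero_H3_final {d : ℤ} (hPG : PGroupCore ℤ d) (H : Subgroup G) :
    IsZero (groupCohomology (Rep.res H.subtype C) 3) :=
  Fermat.Agent.S55.TateNak43.isZero_H3_of_fundamental C σ (critStatement_of_pGroupCore hPG)
    (Fermat.Agent.S55.TateCT12.regularStatement G) hσ H

end Fermat.Agent.S55.TateNak43.Final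

end
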