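/-
S55 / 11a+11c (helper25): the Tate package of helper43 (`TateNak43/Final.lean`) made
UNCONDITIONAL by plugging the `p`-group core `TateCrit45.isRelProj_of_H1_eq_zero`
(`TateCrit45/PGroup25.lean`).
-/
import Fermat.Agent.S55.TateNak43.Final
import Fermat.Agent.S55.TateCrit45.PGroup25

set_option autoImplicit false

open CategoryTheory Limits

noncomputable section

namespace Fermat.Agent.S55.TateNak43.Uncond25

open Fermat.Agent.S55.TateCrit45 Fermat.Agent.S55.TateNak43.CritFree
  Fermat.Agent.S55.TateNak43.CritWire Fermat.Agent.S55.TateNak43.Final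

/-- the `p`-group core, unconditionally. -/
theorem pGroupCore : PGroupCore ℤ (-2) :=
  pGroupCore_of_homological
    (fun p _ _ _ _ hP M hp h => isRelProj_of_H1_eq_zero p hP M hp h)

/-- relatively projective modules are Tate-acyclic. -/
theorem t1 : T1Statement ℤ := t1Statement

variable {G : Type} [Group G] [Fintype G]

/-- the Nakayama-Tate criterion, unconditionally. -/
theorem critStatement : Fermat.Agent.S55.TateNak43.CritStatement ℤ G :=
  critStatement_of_pGroupCore pGroupCore

/-- the twin criterion (any degree `q`), unconditionally. -/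
theorem cohTrivial_of_twin (q : ℤ) (A : Rep.{0} ℤ G) (h : Twin A q) : CohTrivial A :=
  cohTrivial_of_twin_of_pGroupCore pGroupCore q A h

variable (C : Rep ℤ G) (σ : groupCohomology.cocycles₂ C)
  (hσ : Fermat.Agent.S55.TateNak43.IsFundamentalCocycle C σ)

/-- **Tate's theorem**, unconditionally: `Ĥ^n(H, ℤ) ≅ Ĥ^{n+2}(H, C)` for a class module `C`. -/
def tateIso (H : Subgroup G) (n m : ℤ) (hm : m = n + 2) :
    Fermat.Agent.S55.TateNak43.tateSub (Rep.trivial ℤ G ℤ) H n
      ≅ Fermat.Agent.S55.TateNak43.tateSub C H m :=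
  tateIsoFinal C σ hσ pGroupCore H n m hm

/-- **Abstract reciprocity**, unconditionally: `C^H / N_H C ≃ H^ab`. -/
def reciprocityEquiv (H : Subgroup G) :
    (Fermat.Agent.S55.TateNak43.invSub C H ⧸ Fermat.Agent.S55.TateNak43.normSub C H)
      ≃+ Additive (Abelianization H) :=
  reciprocityEquivFinal C σ hσ pGroupCore H

include hσ in
/-- `H³(H, C) = 0`, unconditionally. -/
theorem isZero_H3 (H : Subgroup G) :
    IsZero (groupCohomology (Rep.res H.subtype C) 3) :=
  isZero_H3_final C σ hσ pGroupCore H

end Fermat.Agent.S55.TateNak43.Uncond25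

end
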