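import Fermat.Agent.S55.TateNak43.Main

/-!
# S55 / 11c-TATE-NAKAYAMA, part (L): low degree identifications

* `tateZeroEquiv A : (Aᴳ ⧸ N A) ≃ₗ[k] Ĥ⁰(G, A)`;
* `tateNegTwoEquiv : Ĥ⁻²(G, ℤ) ≃+ Gᵃᵇ`;
* consequences of Tate's theorem: `H³(H, C) = 0`, and the abstract reciprocity isomorphism
  `Cᴴ ⧸ N_H C ≃+ Hᵃᵇ`.
-/

open CategoryTheory groupCohomology groupHomology Limits

noncomputable section

namespace Fermat.Agent.S55.TateNak43

section zero

variable {k G : Type} [CommRing k] [Group G] [Fintype G] (A : Rep k G)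

/-- the short complex `A --N--> A --d₀₁--> Fun(G, A)`. -/
def tateZeroSC : ShortComplex (ModuleCat k) :=
  ShortComplex.mk A.norm.toModuleCatHom (d₀₁ A) (Rep.norm_comp_d_eq_zero A)

/-- the degree-zero part of the Tate complex is the short complex `A → A → Fun(G, A)`. -/
def tateScIso : (tateComplex A).sc' (-1) 0 1 ≅ tateZeroSC A :=
  ShortComplex.isoMk (chainsIso₀ A) (cochainsIso₀ A) (cochainsIso₁ A)
    (by
      change (chainsIso₀ A).hom ≫ A.norm.toModuleCatHom
        = A.tateNorm ≫ (cochainsIso₀ A).hom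
      simp [Rep.tateNorm])
    (by
      change (cochainsIso₀ A).hom ≫ d₀₁ A
        = (inhomogeneousCochains A).d 0 1 ≫ (cochainsIso₁ A).hom
      exact comp_d₀₁_eq A)

/-- `Ĥ⁰(G, A)` is the homology of `A --N--> A --d₀₁--> Fun(G, A)`. -/
def tateZeroIso : tateCohomology A 0 ≅ (tateZeroSC A).homology :=
  (tateComplex A).homologyIsoSc' (-1) 0 1 (by simp) (by simp) ≪≫
    ShortComplex.homologyMapIso (tateScIso A)

/-- the norm, as a map `A → Aᴳ`. -/
def normToInv : A.V →ₗ[k] A.ρ.invariants :=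
  A.ρ.norm.codRestrict _ (fun x g => A.ρ.self_norm_apply g x)

@[simp] lemma normToInv_coe (x : A.V) : ((normToInv A x : A.ρ.invariants) : A.V) = A.ρ.norm x :=
  rfl

/-- the submodule of norms `N A ⊆ Aᴳ`. -/
def normRange : Submodule k A.ρ.invariants := LinearMap.range (normToInv A)

lemma mem_normRange {x : A.ρ.invariants} :
    x ∈ normRange A ↔ ∃ y : A.V, A.ρ.norm y = (x : A.V) := by
  constructor
  · rintro ⟨y, rfl⟩
    exact ⟨y, rfl⟩
  · rintro ⟨y, hy⟩
    exact ⟨y, Subtype.ext hy⟩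

/-- `ker d₀₁ ≃ Aᴳ`. -/
def kerEquivInvariants : LinearMap.ker (tateZeroSC A).g.hom ≃ₗ[k] A.ρ.invariants :=
  LinearEquiv.ofEq _ _ (d₀₁_ker_eq_invariants A)

lemma map_range_toCycles :
    (LinearMap.range (tateZeroSC A).moduleCatToCycles).map (kerEquivInvariants A).toLinearMap
      = normRange A := by
  ext x
  constructor
  · rintro ⟨_, ⟨y, rfl⟩, rfl⟩
    exact ⟨y, rfl⟩
  · rintro ⟨y, rfl⟩
    exact ⟨_, ⟨y, rfl⟩, rfl⟩

/-- **`Ĥ⁰(G, A) = Aᴳ / N A`.** -/
def tateZeroEquiv : (A.ρ.invariants ⧸ normRange A) ≃ₗ[k] tateCohomology A 0 :=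
  ((Submodule.Quotient.equiv _ _ (kerEquivInvariants A) (map_range_toCycles A)).symm).trans
    ((tateZeroSC A).moduleCatHomologyIso.symm ≪≫ (tateZeroIso A).symm).toLinearEquiv

/-- additive form of `tateZeroEquiv`. -/
def tateZeroAddEquiv : (A.ρ.invariants ⧸ normRange A) ≃+ tateCohomology A 0 :=
  (tateZeroEquiv A).toAddEquiv

/-- an isomorphism in `ModuleCat k` as an additive equivalence. -/
def isoToAddEquiv {M N : ModuleCat k} (e : M ≅ N) : M ≃+ N := e.toLinearEquiv.toAddEquiv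

/-- the invariants `Cᴴ` of a subgroup, as a submodule of `C`. -/
abbrev invSub (H : Subgroup G) : Submodule k A.V := (Rep.res H.subtype A).ρ.invariants

/-- the norms `N_H C ⊆ Cᴴ`. -/
abbrev normSub (H : Subgroup G) : Submodule k (invSub A H) :=
  @normRange k H _ _ (Fintype.ofFinite H) (Rep.res H.subtype A)

lemma mem_invSub (H : Subgroup G) {x : A.V} :
    x ∈ invSub A H ↔ ∀ h : H, A.ρ (h : G) x = x := Iff.rfl

lemma mem_normSub (H : Subgroup G) {x : invSub A H} :
    x ∈ normSub A H ↔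
      ∃ y : A.V, (@Finset.univ H (Fintype.ofFinite H)).sum (fun h => A.ρ (h : G) y) = (x : A.V) := by
  rw [normSub, @mem_normRange k H _ _ (Fintype.ofFinite H) (Rep.res H.subtype A) x]
  refine exists_congr fun y => ?_
  letI : Fintype H := Fintype.ofFinite H
  rw [Representation.norm, LinearMap.sum_apply]
  rfl

/-- the projection `Aᴴ → Aᴴ / N_H A` as an additive map. -/
def mkInv (H : Subgroup G) : invSub A H →+ (invSub A H ⧸ normSub A H) :=
  (Submodule.mkQ (normSub A H)).toAddMonoidHom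

lemma mkInv_eq_zero_iff (H : Subgroup G) (x : invSub A H) :
    mkInv A H x = 0 ↔ x ∈ normSub A H :=
  Submodule.Quotient.mk_eq_zero _

lemma mkInv_surjective (H : Subgroup G) : Function.Surjective (mkInv A H) :=
  Submodule.mkQ_surjective _

/-- `Ĥ⁰(H, A) = Aᴴ / N_H A` for a subgroup `H`. -/
def tateSubZeroAddEquiv (H : Subgroup G) : (invSub A H ⧸ normSub A H) ≃+ tateSub A H 0 :=
  @tateZeroAddEquiv k H _ _ (Fintype.ofFinite H) (Rep.res H.subtype A)

end zero

section negTwo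

variable {G : Type} [Group G] [Fintype G]

/-- `Ĥ⁻²(G, A) ≃ H₁(G, A)`. -/
def tateNegTwoIso (A : Rep ℤ G) : tateCohomology A (-2) ≅ groupHomology A 1 :=
  (TateCohomology.isoGroupHomology (R := ℤ) (G := G) (-2) 1 rfl).app A

open TensorProduct in
/-- `Ĥ⁻²(G, A) = Gᵃᵇ ⊗ A` for a trivial representation `A`. -/
def tateNegTwoEquivOfIsTrivial (A : Rep ℤ G) [A.IsTrivial] :
    tateCohomology A (-2) ≃+ (Additive (Abelianization G)) ⊗[ℤ] A :=
  (tateNegTwoIso A).toLinearEquiv.toAddEquiv.trans (H1AddEquivOfIsTrivial A)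

/-- **`Ĥ⁻²(G, ℤ) = Gᵃᵇ`.** -/
def tateNegTwoEquiv :
    tateCohomology (Rep.trivial ℤ G ℤ) (-2) ≃+ Additive (Abelianization G) :=
  (tateNegTwoEquivOfIsTrivial (Rep.trivial ℤ G ℤ)).trans
    (TensorProduct.rid ℤ (Additive (Abelianization G))).toAddEquiv

/-- `Ĥ⁻²(H, ℤ) = Hᵃᵇ` for a subgroup `H ≤ G`. -/
def tateSubNegTwoEquiv (H : Subgroup G) :
    tateSub (Rep.trivial ℤ G ℤ) H (-2) ≃+ Additive (Abelianization H) :=
  haveI : (Rep.res H.subtype (Rep.trivial ℤ G ℤ)).IsTrivial := ⟨fun _ => rfl⟩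
  (@tateNegTwoEquivOfIsTrivial H _ (Fintype.ofFinite H)
    (Rep.res H.subtype (Rep.trivial ℤ G ℤ)) _).trans
    (TensorProduct.rid ℤ (Additive (Abelianization H))).toAddEquiv

end negTwo

section consequences

variable {G : Type} [Group G] [Fintype G] (C : Rep ℤ G) (σ : cocycles₂ C)
  (hcrit : CritStatement ℤ G) (hreg : RegularStatement ℤ G) (hσ : IsFundamentalCocycle C σ)

/-- **Abstract reciprocity isomorphism** `Cᴴ / N_H C ≃+ Hᵃᵇ` for a class module `(C, σ)`. -/
def reciprocityEquiv (H : Subgroup G) :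
    (invSub C H ⧸ normSub C H) ≃+ Additive (Abelianization H) :=
  ((tateSubZeroAddEquiv C H).trans
    (isoToAddEquiv (tateIsoInt C σ hcrit hreg hσ H (-2) 0 rfl)).symm).trans
    (tateSubNegTwoEquiv H)

include hcrit hreg hσ in
/-- the norm index `[Cᴴ : N_H C]` is the order of `Hᵃᵇ`. -/
theorem card_inv_quot_norm (H : Subgroup G) :
    Nat.card (invSub C H ⧸ normSub C H) = Nat.card (Abelianization H) :=
  Nat.card_congr (reciprocityEquiv C σ hcrit hreg hσ H).toEquiv

include hcrit hreg hσ in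
/-- `Cᴴ / N_H C` is killed by every exponent of `Hᵃᵇ`. -/
theorem nsmul_mem_normSub (H : Subgroup G) (n : ℕ)
    (hn : ∀ a : Abelianization H, a ^ n = 1) (x : invSub C H) : n • x ∈ normSub C H := by
  have e := reciprocityEquiv C σ hcrit hreg hσ H
  rw [← mkInv_eq_zero_iff, map_nsmul]
  apply e.injective
  rw [map_nsmul, map_zero]
  exact congrArg Additive.ofMul (hn (Additive.toMul (e (mkInv C H x))))

include hcrit hreg hσ in
/-- `H³(H, C) = 0` for a class module. -/
theorem isZero_H3_of_fundamental (H : Subgroup G) :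
    IsZero (groupCohomology (Rep.res H.subtype C) 3) := by
  have e1 := (@TateCohomology.isoGroupCohomology ℤ H _ _ (Fintype.ofFinite H) 1 _).app
    (Rep.res H.subtype (Rep.trivial ℤ G ℤ))
  have e3 := (@TateCohomology.isoGroupCohomology ℤ H _ _ (Fintype.ofFinite H) 3 _).app
    (Rep.res H.subtype C)
  have h1 : IsZero (tateSub (Rep.trivial ℤ G ℤ) H 1) :=
    IsZero.of_iso (isZero_H1_trivial_int H) e1
  have h3 : IsZero (tateSub C H 3) :=
    IsZero.of_iso h1 (tateIsoInt C σ hcrit hreg hσ H 1 3 rfl).symm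
  exact IsZero.of_iso h3 e3.symm

end consequences

end Fermat.Agent.S55.TateNak43

end
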