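import Fermat.Agent.S55.TateNak43.Uncond
import Fermat.Agent.S55.FundClass28
import Fermat.Agent.S55.LocDev51.KL

/-!
# S55 / 11c → 22 / P2: `H³ = 0` for local multiplicative modules from ONE class of full order

Glue of landed pieces (no new mathematics):

* `TateNak43.Uncond.isZero_H3` (Tate's theorem, unconditional),
* helper28's `FundClass28.isFundamentalCocycle_of_card` (a class of order `|G|` + the bounds
  `|H²(H, C)| ≤ |H|` is fundamental),
* helper51's `LocDev51.localClass_devissage` (`H¹ = 0`, `|H²| ∣ |Q|` for local G-fields, closed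
  under restriction).

Output: for a finite group `G` and `C : Rep ℤ G` such that every subgroup `H` satisfies
`H¹(H, C) = 0` and `|H²(H, C)| ∣ |H|`, ONE class `x ∈ H²(G, C)` with `|G| ∣ addOrderOf x` gives
`H³(H, C) = 0` for every `H`.  In particular (`LocalClass`, `IsLocalGField`):
the only arithmetic input of `H³(Gal(L/K), Lˣ) = 0` left is the lower bound
"`H²(Gal(L/K), Lˣ)` contains an element of order `[L:K]`".
-/

set_option autoImplicit false
set_option linter.style.haveILetI false

open CategoryTheory Limits groupCohomology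

noncomputable section

namespace Fermat.Agent.S55.TateNak43.LocalH3

variable {G : Type} [Group G] [Finite G]

omit [Finite G] in
/-- every class of `H²` is the class of a `2`-cocycle. -/
theorem exists_H2π_eq (C : Rep.{0} ℤ G) (x : groupCohomology C 2) :
    ∃ σ : cocycles₂ C, H2π C σ = x := by
  induction x using H2_induction_on with
  | h σ => exact ⟨σ, rfl⟩

/-- **`H³ = 0` from one class of full order** (abstract form): if every subgroup `H` of `G` has
`H¹(H, C) = 0` and `|H²(H, C)| ∣ |H|`, and `H²(G, C)` contains a class whose order is divisible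
by `|G|`, then `(C, σ)` is a class module for a cocycle `σ` of that class. -/
theorem exists_isFundamentalCocycle (C : Rep.{0} ℤ G)
    (h : ∀ H : Subgroup G, IsZero (groupCohomology (Rep.res H.subtype C) 1) ∧
      Nat.card (groupCohomology (Rep.res H.subtype C) 2) ∣ Nat.card H)
    (x : groupCohomology C 2) (hx : Nat.card G ∣ addOrderOf x) :
    ∃ σ : cocycles₂ C, H2π C σ = x ∧ Fermat.Agent.S55.TateNak43.IsFundamentalCocycle C σ := by
  obtain ⟨σ, rfl⟩ := exists_H2π_eq C x
  letI : Fintype G := Fintype.ofFinite G
  refine ⟨σ, rfl, Fermat.Agent.S55.FundClass28.isFundamentalCocycle_of_card C σ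
    (fun H => (h H).1) (fun H => ?_) (fun H => Nat.le_of_dvd Nat.card_pos (h H).2) hx⟩
  refine Nat.finite_of_card_ne_zero fun h0 => ?_
  have := (h H).2
  rw [h0, zero_dvd_iff] at this
  exact Nat.card_pos.ne' this

/-- `H³(H, C) = 0` for all subgroups, from one class of full order. -/
theorem isZero_H3_res (C : Rep.{0} ℤ G)
    (h : ∀ H : Subgroup G, IsZero (groupCohomology (Rep.res H.subtype C) 1) ∧
      Nat.card (groupCohomology (Rep.res H.subtype C) 2) ∣ Nat.card H)
    (x : groupCohomology C 2) (hx : Nat.card G ∣ addOrderOf x) (H : Subgroup G) :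
    IsZero (groupCohomology (Rep.res H.subtype C) 3) := by
  obtain ⟨σ, -, hσ⟩ := exists_isFundamentalCocycle C h x hx
  letI : Fintype G := Fintype.ofFinite G
  exact Fermat.Agent.S55.TateNak43.Uncond.isZero_H3 C σ hσ H

/-- `H³(G, C) = 0`, from one class of full order. -/
theorem isZero_H3 (C : Rep.{0} ℤ G)
    (h : ∀ H : Subgroup G, IsZero (groupCohomology (Rep.res H.subtype C) 1) ∧
      Nat.card (groupCohomology (Rep.res H.subtype C) 2) ∣ Nat.card H)
    (x : groupCohomology C 2) (hx : Nat.card G ∣ addOrderOf x) :
    IsZero (groupCohomology C 3) := by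
  obtain ⟨σ, -, hσ⟩ := exists_isFundamentalCocycle C h x hx
  letI : Fintype G := Fintype.ofFinite G
  exact Fermat.Agent.S55.TateNak43.Uncond.isZero_H3_top C σ hσ

/-! ### the local class (helper51) -/

open Fermat.Agent.S55.LocDev51

/-- the hypotheses `H¹ = 0`, `|H²| ∣ |H|` for all subgroups hold in helper51's local class. -/
theorem localClass_forall_sub {B : Rep.{0, 0, 0} ℤ G} (hB : LocalClass G B) (H : Subgroup G) :
    IsZero (groupCohomology (Rep.res H.subtype B) 1) ∧
      Nat.card (groupCohomology (Rep.res H.subtype B) 2) ∣ Nat.card H :=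
  localClass_devissage (closed_localClass.res G B hB H)

/-- **Local fundamental class**: a member `B` of the local class (`B ≅ Eˣ` for a local G-field
`(G, E)`) with a class of order divisible by `|G|` in `H²(G, B)` is a class module. -/
theorem localClass_exists_isFundamentalCocycle {B : Rep.{0, 0, 0} ℤ G} (hB : LocalClass G B)
    (x : groupCohomology B 2) (hx : Nat.card G ∣ addOrderOf x) :
    ∃ σ : cocycles₂ B, H2π B σ = x ∧ Fermat.Agent.S55.TateNak43.IsFundamentalCocycle B σ :=
  exists_isFundamentalCocycle B (localClass_forall_sub hB) x hx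

/-- **Local Tate `H³ = 0`** in the local class. -/
theorem localClass_isZero_H3 {B : Rep.{0, 0, 0} ℤ G} (hB : LocalClass G B)
    (x : groupCohomology B 2) (hx : Nat.card G ∣ addOrderOf x) :
    IsZero (groupCohomology B 3) :=
  isZero_H3 B (localClass_forall_sub hB) x hx

section GField

attribute [local instance] Units.mulDistribMulActionRight

variable {Q : Type} [Group Q] {E : Type} [NormedField E] [MulSemiringAction Q E]

/-- **Local Tate `H³(Q, Eˣ) = 0`** for a local G-field `(Q, E)` (helper51's vocabulary): the only
input is ONE class of `H²(Q, Eˣ)` of order divisible by `|Q|` (the 22a lower bound). -/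
theorem isZero_H3_unitsRep (h : IsLocalGField Q E)
    (x : groupCohomology (unitsRep Q E) 2) (hx : Nat.card Q ∣ addOrderOf x) :
    IsZero (groupCohomology (unitsRep Q E) 3) := by
  haveI := h.finite
  exact localClass_isZero_H3 (localClass_unitsRep h) x hx

/-- the same for every subgroup `H ≤ Q` (fixed field of `H` as base). -/
theorem isZero_H3_res_unitsRep (h : IsLocalGField Q E)
    (x : groupCohomology (unitsRep Q E) 2) (hx : Nat.card Q ∣ addOrderOf x) (H : Subgroup Q) :
    IsZero (groupCohomology (Rep.res H.subtype (unitsRep Q E)) 3) := by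
  haveI := h.finite
  exact isZero_H3_res _ (localClass_forall_sub (localClass_unitsRep h)) x hx H

/-- the local fundamental cocycle for a local G-field. -/
theorem exists_isFundamentalCocycle_unitsRep (h : IsLocalGField Q E)
    (x : groupCohomology (unitsRep Q E) 2) (hx : Nat.card Q ∣ addOrderOf x) :
    ∃ σ : cocycles₂ (unitsRep Q E), H2π (unitsRep Q E) σ = x ∧
      Fermat.Agent.S55.TateNak43.IsFundamentalCocycle (unitsRep Q E) σ := by
  haveI := h.finite
  exact localClass_exists_isFundamentalCocycle (localClass_unitsRep h) x hx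

end GField

section KL

variable (K L : Type) [NontriviallyNormedField K] [IsUltrametricDist K] [ProperSpace K]
  [NormedField L] [NormedAlgebra K L] [FiniteDimensional K L] [IsGalois K L]

/-- **Local Tate `H³(Gal(L/K), Lˣ) = 0`** in the normed `(K, L)` model of LocH28 / LocDev51.KL,
for Mathlib's `Rep.ofAlgebraAutOnUnits K L`: the only input is one class of `H²(Gal(L/K), Lˣ)`
whose order is divisible by `[L:K]`. -/
theorem isZero_H3_ofAlgebraAutOnUnits
    (x : groupCohomology (Rep.ofAlgebraAutOnUnits K L) 2)
    (hx : Module.finrank K L ∣ addOrderOf x) :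
    IsZero (groupCohomology (Rep.ofAlgebraAutOnUnits K L) 3) :=
  localClass_isZero_H3 (localClass_ofAlgebraAutOnUnits K L) x
    (by rwa [IsGalois.card_aut_eq_finrank])

/-- the local fundamental cocycle in the `(K, L)` model. -/
theorem exists_isFundamentalCocycle_ofAlgebraAutOnUnits
    (x : groupCohomology (Rep.ofAlgebraAutOnUnits K L) 2)
    (hx : Module.finrank K L ∣ addOrderOf x) :
    ∃ σ : cocycles₂ (Rep.ofAlgebraAutOnUnits K L), H2π (Rep.ofAlgebraAutOnUnits K L) σ = x ∧
      Fermat.Agent.S55.TateNak43.IsFundamentalCocycle (Rep.ofAlgebraAutOnUnits K L) σ :=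
  localClass_exists_isFundamentalCocycle (localClass_ofAlgebraAutOnUnits K L) x
    (by rwa [IsGalois.card_aut_eq_finrank])

end KL

end Fermat.Agent.S55.TateNak43.LocalH3

end
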