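import Fermat.Agent.S55.TateNak43.LocalUncond
import Fermat.Agent.S55.CDArith63.Pieces

/-!
# S55 / the binder `hH3J`, LITERALLY and UNCONDITIONALLY

`hH3J` in the exact binder shapes of

* helper99 `LimDesc99.hasFormationDatum_of_layers` / helper63 `CDArith63.GlobalForm.formation_res`
  (`H3TorsVan 𝒱 p (resSub (canρ (JSp S)) V)`): `hH3J_JSp`;
* helper62 `P1Lim62.Datum.hasFormationDatum_of_components`
  (`∀ q : ↥S, H3TorsVan 𝒱 p (resSub (canρ (JSq S q)) V)`): `hH3J_JSq`, `hH3J_JSq_all`.

Pure glue: `TateNak43.LocalUncond` (local Tate, unconditional) + helper94 `GlobalMod94.H3`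
+ helper63 `CDArith63.Pieces.h3TorsVan_resSub_of_H3Vanishes`.
-/

set_option autoImplicit false

noncomputable section

namespace Fermat.Agent.S55.TateNak43.HH3J

open Fermat.Agent.S55.Profin15 Fermat.Agent.S55.CD3 Fermat.Agent.S55.CDArith63
open Fermat.Agent.S55.CDArith63.Adapter Fermat.Agent.S55.GlobalMod94.JS
open Fermat.Agent.S55.Idele73.Basic

/-- level `H³(V, J_{S,q}) = 0` for every open `V ≤ G_ℚ` (one component), unconditionally. -/
theorem h3Vanishes_JSq (S : Finset Nat.Primes) (q : ℕ) [Fact q.Prime] (V : Subgroup GQ)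
    (hV : IsOpenSub (globalLevels S) V) :
    CD3.H3Vanishes (restrictLevels (globalLevels S) V hV) (Rep.res V.subtype (JSq S q)).ρ :=
  Fermat.Agent.S55.GlobalMod94.H3.h3Vanishes_JSq S q V hV
    (Fermat.Agent.S55.TateNak43.LocalUncond.localTateH3 q)

/-- **`hH3J` of `LimDesc99.hasFormationDatum_of_layers` / `GlobalForm.formation_res`, literally.** -/
theorem hH3J_JSp (p : ℕ) (S : Finset Nat.Primes) (V : Subgroup GQ)
    (hV : IsOpenSub (globalLevels S) V) :
    H3TorsVan (restrictLevels (globalLevels S) V hV) p (resSub (canρ (JSp S)) V) :=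
  Pieces.h3TorsVan_resSub_of_H3Vanishes (globalLevels S) (JSp S) p V hV
    (Fermat.Agent.S55.TateNak43.LocalUncond.h3Vanishes_JSp S V hV)

/-- one component of `hH3J` in helper62's `hasFormationDatum_of_components` shape. -/
theorem hH3J_JSq (p : ℕ) (S : Finset Nat.Primes) (q : ℕ) [Fact q.Prime] (V : Subgroup GQ)
    (hV : IsOpenSub (globalLevels S) V) :
    H3TorsVan (restrictLevels (globalLevels S) V hV) p (resSub (canρ (JSq S q)) V) :=
  Pieces.h3TorsVan_resSub_of_H3Vanishes (globalLevels S) (JSq S q) p V hV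
    (h3Vanishes_JSq S q V hV)

/-- **`hH3J` of `P1Lim62.Datum.hasFormationDatum_of_components`, literally.** -/
theorem hH3J_JSq_all (p : ℕ) (S : Finset Nat.Primes) (V : Subgroup GQ)
    (hV : IsOpenSub (globalLevels S) V) :
    ∀ q : ↥S, H3TorsVan (restrictLevels (globalLevels S) V hV) p
      (resSub (canρ (JSq S ((q : Nat.Primes) : ℕ))) V) :=
  fun q => hH3J_JSq p S ((q : Nat.Primes) : ℕ) V hV

end Fermat.Agent.S55.TateNak43.HH3J

end
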