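import Fermat.Agent.S55.TateNak43.LocalAbs
import Fermat.Agent.S55.LocDev51.AbsClass

/-!
# S55 / local Tate, UNCONDITIONAL

helper51's `LocDev51.absClass' q : P2Local71.AbsClass' q` (the absolute lower bound of local
class field theory, on helper80's `LocInv80`) plugged into `TateNak43.LocalAbs`:

* `hasFund E`        : the local fundamental cocycle of `(Gal(E/ℚ_q), Eˣ)` (helper45's `HasFund`);
* `tateIso E`, `reciprocityEquiv E`, `card_norm_index E` : Tate's theorem, local reciprocity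
  `K^×/N_{E/K}E^× ≃ Gal(E/K)^ab` and the norm index, for every subgroup (intermediate field);
* `localTateH3 q`    : helper94's `GlobalMod94.H3.LocalTateH3 q`;
* `isZero_H3_res E D'`, `isZero_H3_Jq q L H` : `H³ = 0` for local units and for the idele
  component `Jq q L` (36b);
* `h3Vanishes_JSp S V hV` : level `H³(V, J_S) = 0` for every open `V ≤ G_ℚ`
  (`hH3J` of the limit formation, 45b / 52).
-/

set_option autoImplicit false
set_option linter.style.haveILetI false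

open CategoryTheory Limits groupCohomology

noncomputable section

namespace Fermat.Agent.S55.TateNak43.LocalUncond

open Fermat.Agent.S55.LocField17 Fermat.Agent.S55.LocDev51 Fermat.Agent.S55.TateNak43.LocalAbs

variable {q : ℕ} [Fact q.Prime]

/-- the absolute local class exists (helper51). -/
theorem absClass : AbsClass q := absClass_of_p2 (absClass' q)

/-- **the local fundamental cocycle** of `(Gal(E/ℚ_q), Eˣ)`, unconditionally. -/
theorem hasFund (E : LF q) [FiniteDimensional ℚ_[q] E] [Normal ℚ_[q] E] :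
    Fermat.Agent.S55.H3Jq45.HasFund ℚ_[q] E :=
  hasFund_of_absClass absClass E

/-- `H³(D', Eˣ) = 0` for every subgroup `D' ≤ Gal(E/ℚ_q)`, unconditionally. -/
theorem isZero_H3_res (E : LF q) [FiniteDimensional ℚ_[q] E] [Normal ℚ_[q] E]
    (D' : Subgroup (E ≃ₐ[ℚ_[q]] E)) :
    IsZero (groupCohomology (Rep.res D'.subtype (Rep.ofAlgebraAutOnUnits ℚ_[q] E)) 3) :=
  isZero_H3_res_of_absClass absClass E D'

/-- **Local reciprocity** (abstract form): for `E/ℚ_q` finite Galois and `D' ≤ Gal(E/ℚ_q)`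
(`K = E^{D'}`), `(Eˣ)^{D'} / N_{D'} Eˣ ≃+ D'^ab`, i.e. `Kˣ / N_{E/K} Eˣ ≃ Gal(E/K)^ab`. -/
theorem nonempty_reciprocityEquiv (E : LF q) [FiniteDimensional ℚ_[q] E] [Normal ℚ_[q] E]
    (D' : Subgroup (E ≃ₐ[ℚ_[q]] E)) :
    Nonempty ((Fermat.Agent.S55.TateNak43.invSub (Rep.ofAlgebraAutOnUnits ℚ_[q] E) D' ⧸
        Fermat.Agent.S55.TateNak43.normSub (Rep.ofAlgebraAutOnUnits ℚ_[q] E) D')
      ≃+ Additive (Abelianization D')) := by
  obtain ⟨σ, hσ⟩ := hasFund E
  letI : Fintype (E ≃ₐ[ℚ_[q]] E) := Fintype.ofFinite _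
  exact ⟨Fermat.Agent.S55.TateNak43.Uncond.reciprocityEquiv _ σ hσ D'⟩

/-- **Local norm index**: `[Kˣ : N_{E/K} Eˣ] = |Gal(E/K)^ab|` for `K = E^{D'}`. -/
theorem card_norm_index (E : LF q) [FiniteDimensional ℚ_[q] E] [Normal ℚ_[q] E]
    (D' : Subgroup (E ≃ₐ[ℚ_[q]] E)) :
    Nat.card (Fermat.Agent.S55.TateNak43.invSub (Rep.ofAlgebraAutOnUnits ℚ_[q] E) D' ⧸
        Fermat.Agent.S55.TateNak43.normSub (Rep.ofAlgebraAutOnUnits ℚ_[q] E) D')
      = Nat.card (Abelianization D') := by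
  obtain ⟨e⟩ := nonempty_reciprocityEquiv E D'
  exact Nat.card_congr e.toEquiv

/-- **Tate's theorem for local fields**: `Ĥⁿ(D', ℤ) ≅ Ĥⁿ⁺²(D', Eˣ)` for all `n : ℤ`. -/
theorem nonempty_tateIso (E : LF q) [FiniteDimensional ℚ_[q] E] [Normal ℚ_[q] E]
    (D' : Subgroup (E ≃ₐ[ℚ_[q]] E)) (n m : ℤ) (hm : m = n + 2) :
    letI : Fintype (E ≃ₐ[ℚ_[q]] E) := Fintype.ofFinite _
    Nonempty (Fermat.Agent.S55.TateNak43.tateSub (Rep.trivial ℤ (E ≃ₐ[ℚ_[q]] E) ℤ) D' n
      ≅ Fermat.Agent.S55.TateNak43.tateSub (Rep.ofAlgebraAutOnUnits ℚ_[q] E) D' m) := by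
  obtain ⟨σ, hσ⟩ := hasFund E
  letI : Fintype (E ≃ₐ[ℚ_[q]] E) := Fintype.ofFinite _
  exact ⟨Fermat.Agent.S55.TateNak43.Uncond.tateIso _ σ hσ D' n m hm⟩

variable (q)

/-- helper94's `(H-LT)`, unconditionally. -/
theorem localTateH3 : Fermat.Agent.S55.GlobalMod94.H3.LocalTateH3 q :=
  localTateH3_of_p2 (absClass' q)

/-- `H³(H, Jq q L) = 0` for every `H ≤ Gal(L/ℚ)` (36b), unconditionally. -/
theorem isZero_H3_Jq (L : IntermediateField ℚ Fermat.Agent.S55.Idele73.Basic.Qbar) [Normal ℚ L]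
    [FiniteDimensional ℚ L] (H : Subgroup (Fermat.Agent.S55.Idele73.Basic.GalL L)) :
    IsZero (groupCohomology (Rep.res H.subtype (Fermat.Agent.S55.Idele73.Basic.Jq q L)) 3) :=
  isZero_H3_Jq_of_p2 (absClass' q) L H

end Fermat.Agent.S55.TateNak43.LocalUncond

namespace Fermat.Agent.S55.TateNak43.LocalUncond

open Fermat.Agent.S55.GlobalMod94.JS in
/-- **(H3J)** of the limit formation (52 / 45b), unconditionally: level `H³(V, J_S) = 0` for
every open subgroup `V` of `G_ℚ`. -/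
theorem h3Vanishes_JSp (S : Finset Nat.Primes)
    (V : Subgroup Fermat.Agent.S55.Idele73.Basic.GQ)
    (hV : Fermat.Agent.S55.CD3.IsOpenSub (Fermat.Agent.S55.Profin15.globalLevels S) V) :
    Fermat.Agent.S55.CD3.H3Vanishes
      (Fermat.Agent.S55.CD3.restrictLevels (Fermat.Agent.S55.Profin15.globalLevels S) V hV)
      (Rep.res V.subtype (Fermat.Agent.S55.GlobalMod94.JS.JSp S)).ρ :=
  Fermat.Agent.S55.TateNak43.LocalAbs.h3Vanishes_JSp_of_p2 S V hV
    (fun q => Fermat.Agent.S55.LocDev51.absClass' ((q : Nat.Primes) : ℕ))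

end Fermat.Agent.S55.TateNak43.LocalUncond

end
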