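import Fermat.Agent.S55.TateNak43.Final
import Fermat.Agent.S55.TateNak43.Fund
import Fermat.Agent.S55.TateCrit45.PGroup25

/-!
# S55 / 11a+11c: the Tate package, UNCONDITIONAL

Every input of `TateNak43/Final.lean` is now a landed theorem: the last one, the `p`-group core
(`p`-torsion module over a `p`-group with `H₁ = 0` is relatively projective), is helper25's
`TateCrit45.isRelProj_of_H1_eq_zero` (spare: helper4's `TateCrit45.PGroup4`).

Exports (all hypothesis-free apart from the class-formation data `IsFundamentalCocycle C σ`):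

* `pGroupCore : PGroupCore ℤ (-2)`;
* `critStatement G : CritStatement ℤ G` — the Nakayama–Tate criterion
  (`H¹(H, A) = H²(H, A) = 0` for all subgroups `H` ⟹ `A` cohomologically trivial);
* `cohTrivial_of_twin q A` — the twin criterion in any degree `q : ℤ`;
* `tateIso C σ hσ H n m hm : Ĥⁿ(H, ℤ) ≅ Ĥᵐ(H, C)` for `m = n + 2` — **Tate's theorem**;
* `reciprocityEquiv C σ hσ H : C^H / N_H C ≃+ H^ab` — abstract reciprocity;
* `isZero_H3 C σ hσ H : IsZero (H³(H, C))`;
* `card_inv_quot_norm`, the norm index `|C^H / N_H C| = |H^ab|`.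
-/

set_option autoImplicit false

open CategoryTheory Limits

noncomputable section

namespace Fermat.Agent.S55.TateNak43.Uncond

open Fermat.Agent.S55.TateNak43.CritFree Fermat.Agent.S55.TateNak43.Final

/-- the `p`-group core, unconditionally (helper25's `isRelProj_of_H1_eq_zero`). -/
theorem pGroupCore : PGroupCore ℤ (-2) :=
  pGroupCore_of_homological (fun p _ _ _ _ hP M hp h =>
    Fermat.Agent.S55.TateCrit45.isRelProj_of_H1_eq_zero p hP M hp h)

variable (G : Type) [Group G] [Fintype G]

/-- **The Nakayama–Tate criterion**, unconditionally: if `H¹(H, A) = H²(H, A) = 0` for every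
subgroup `H` of the finite group `G`, then `A` is cohomologically trivial. -/
theorem critStatement : Fermat.Agent.S55.TateNak43.CritStatement ℤ G :=
  critStatement_of_pGroupCore pGroupCore

variable {G}

/-- **The twin criterion** in any degree `q : ℤ`, unconditionally. -/
theorem cohTrivial_of_twin (q : ℤ) (A : Rep.{0} ℤ G) (h : Twin A q) :
    Fermat.Agent.S55.TateNak43.CohTrivial A :=
  cohTrivial_of_twin_of_pGroupCore pGroupCore q A h

/-- cohomology of the restriction to `⊤` is the cohomology of the whole group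
(generic coefficient ring, to avoid the `ℤ`-module diamond). -/
def resTopIso {k : Type} [CommRing k] {G : Type} [Group G] (C : Rep.{0} k G) (n : ℕ) :
    groupCohomology (Rep.res (⊤ : Subgroup G).subtype C) n ≅ groupCohomology C n :=
  groupCohomology.mapIso (A := C) (B := Rep.res (⊤ : Subgroup G).subtype C)
    (Subgroup.topEquiv : (⊤ : Subgroup G) ≃* G) (LinearEquiv.refl k C.V) (fun _ => rfl) n

variable (C : Rep ℤ G) (σ : groupCohomology.cocycles₂ C)
  (hσ : Fermat.Agent.S55.TateNak43.IsFundamentalCocycle C σ)

/-- **Tate's theorem**, unconditionally: for a class module `(C, σ)`,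
`Ĥⁿ(H, ℤ) ≅ Ĥⁿ⁺²(H, C)` for every subgroup `H` and every `n : ℤ`. -/
def tateIso (H : Subgroup G) (n m : ℤ) (hm : m = n + 2) :
    Fermat.Agent.S55.TateNak43.tateSub (Rep.trivial ℤ G ℤ) H n
      ≅ Fermat.Agent.S55.TateNak43.tateSub C H m :=
  tateIsoFinal C σ hσ pGroupCore H n m hm

/-- **Abstract reciprocity**, unconditionally: `C^H / N_H C ≃+ H^ab`. -/
def reciprocityEquiv (H : Subgroup G) :
    (Fermat.Agent.S55.TateNak43.invSub C H ⧸ Fermat.Agent.S55.TateNak43.normSub C H)
      ≃+ Additive (Abelianization H) :=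
  reciprocityEquivFinal C σ hσ pGroupCore H

include hσ in
/-- `H³(H, C) = 0` for a class module, unconditionally. -/
theorem isZero_H3 (H : Subgroup G) :
    IsZero (groupCohomology (Rep.res H.subtype C) 3) :=
  isZero_H3_final C σ hσ pGroupCore H

include hσ in
/-- `H³(G, C) = 0` for a class module, unconditionally (whole group, no `Rep.res`). -/
theorem isZero_H3_top : IsZero (groupCohomology C 3) := by
  exact IsZero.of_iso (isZero_H3 C σ hσ (⊤ : Subgroup G)) (resTopIso C 3).symm

include hσ in
/-- the norm index `[C^H : N_H C] = |H^ab|`, unconditionally. -/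
theorem card_inv_quot_norm (H : Subgroup G) :
    Nat.card (Fermat.Agent.S55.TateNak43.invSub C H ⧸ Fermat.Agent.S55.TateNak43.normSub C H)
      = Nat.card (Abelianization H) :=
  Fermat.Agent.S55.TateNak43.card_inv_quot_norm C σ (critStatement G)
    (Fermat.Agent.S55.TateCT12.regularStatement G) hσ H

include hσ in
/-- `C^H / N_H C` is killed by every exponent of `H^ab`, unconditionally. -/
theorem nsmul_mem_normSub (H : Subgroup G) (n : ℕ)
    (hn : ∀ a : Abelianization H, a ^ n = 1) (x : Fermat.Agent.S55.TateNak43.invSub C H) :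
    n • x ∈ Fermat.Agent.S55.TateNak43.normSub C H :=
  Fermat.Agent.S55.TateNak43.nsmul_mem_normSub C σ (critStatement G)
    (Fermat.Agent.S55.TateCT12.regularStatement G) hσ H n hn x

omit hσ in
/-- **`H³ = 0` from class-formation data in cardinality form**: `H¹(H, C) = 0`,
`|H²(H, C)| ∣ |H|` and `addOrderOf (res_H [σ]) = |H|` for every subgroup `H` of `G`
give `H³(H, C) = 0` for every `H`. -/
theorem isZero_H3_of_card
    (h1 : ∀ H : Subgroup G, IsZero (groupCohomology (Rep.res H.subtype C) 1))
    (hfin : ∀ H : Subgroup G, Finite (groupCohomology (Rep.res H.subtype C) 2))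
    (hcard : ∀ H : Subgroup G,
      Nat.card (groupCohomology (Rep.res H.subtype C) 2) ∣ Nat.card H)
    (hord : ∀ H : Subgroup G,
      addOrderOf (Fermat.Agent.S55.TateNak43.fundClass C σ H) = Nat.card H)
    (H : Subgroup G) : IsZero (groupCohomology (Rep.res H.subtype C) 3) :=
  isZero_H3 C σ
    (Fermat.Agent.S55.TateNak43.IsFundamentalCocycle.of_card_dvd C σ h1 hfin hcard hord) H

omit hσ in
/-- whole-group form of `isZero_H3_of_card`. -/
theorem isZero_H3_top_of_card
    (h1 : ∀ H : Subgroup G, IsZero (groupCohomology (Rep.res H.subtype C) 1))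
    (hfin : ∀ H : Subgroup G, Finite (groupCohomology (Rep.res H.subtype C) 2))
    (hcard : ∀ H : Subgroup G,
      Nat.card (groupCohomology (Rep.res H.subtype C) 2) ∣ Nat.card H)
    (hord : ∀ H : Subgroup G,
      addOrderOf (Fermat.Agent.S55.TateNak43.fundClass C σ H) = Nat.card H) :
    IsZero (groupCohomology C 3) :=
  isZero_H3_top C σ
    (Fermat.Agent.S55.TateNak43.IsFundamentalCocycle.of_card_dvd C σ h1 hfin hcard hord)

end Fermat.Agent.S55.TateNak43.Uncond

end
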