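import Fermat.Agent.S55.TateNak43.CritFree
import Fermat.Agent.S55.TateNak43.Low

/-!
# S55 / 11a3: wiring the criterion into `TateNak43.CritStatement`

`critStatement` : the four named inputs (T1, PGroupCore d, CardKills, SylowDetect) give the
Prop `CritStatement ℤ G` consumed by Tate's theorem (`tateIsoInt`, `reciprocityEquiv`, ...).
-/

set_option autoImplicit false

open CategoryTheory Limits

noncomputable section

namespace Fermat.Agent.S55.TateNak43.CritWire

open Fermat.Agent.S55.TateCrit45 Fermat.Agent.S55.TateNak43.CritFree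

variable {G : Type} [Group G] [Fintype G]

lemma int_torsionFree (p : ℕ) [hp : Fact p.Prime] (c : ℤ) (h : p • c = 0) : c = 0 := by
  rcases smul_eq_zero.1 h with h | h
  · exact absurd h hp.out.ne_zero
  · exact h

/-- **(O4)** the criterion in the shape consumed by `TateNak43`. -/
theorem critStatement {d : ℤ} (hT1 : T1Statement ℤ) (hPG : PGroupCore ℤ d)
    (hcard : CardKills ℤ) (hsyl : SylowDetect ℤ G) :
    Fermat.Agent.S55.TateNak43.CritStatement ℤ G := by
  intro A h
  have htwin : Twin A 1 := by
    intro H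
    have e1 := (@TateCohomology.isoGroupCohomology ℤ H _ _ (Fintype.ofFinite H) 1 _).app
      (Rep.res H.subtype A)
    have e2 := (@TateCohomology.isoGroupCohomology ℤ H _ _ (Fintype.ofFinite H) 2 _).app
      (Rep.res H.subtype A)
    exact ⟨IsZero.of_iso (h H).1 e1, IsZero.of_iso (h H).2 e2⟩
  exact cohTrivial_of_twin hT1 hPG hcard hsyl (fun p _ c hc => int_torsionFree p c hc) 1 A htwin

/-- Tate's theorem from the named inputs of 11a. -/
def tateIsoOfInputs {d : ℤ} (hT1 : T1Statement ℤ) (hPG : PGroupCore ℤ d)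
    (hcard : CardKills ℤ) (hsyl : SylowDetect ℤ G)
    (hreg : Fermat.Agent.S55.TateNak43.RegularStatement ℤ G)
    (C : Rep ℤ G) (σ : groupCohomology.cocycles₂ C)
    (hσ : Fermat.Agent.S55.TateNak43.IsFundamentalCocycle C σ)
    (H : Subgroup G) (n m : ℤ) (hm : m = n + 2) :
    Fermat.Agent.S55.TateNak43.tateSub (Rep.trivial ℤ G ℤ) H n
      ≅ Fermat.Agent.S55.TateNak43.tateSub C H m :=
  Fermat.Agent.S55.TateNak43.tateIsoInt C σ (critStatement hT1 hPG hcard hsyl) hreg hσ H n m hm

end Fermat.Agent.S55.TateNak43.CritWire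

end
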