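import Fermat.Agent.S55.TateCrit45.Shift

/-!
# S55 / 11a3-CRIT-FREE: the Nakayama-Tate criterion from its named inputs

Steps (4) (torsion-free case via `A/p`), (5) (free cover) and the final assembly of the
twin-vanishing criterion, against the named inputs
`T1Statement`, `PGroupCore d`, `CardKills`, `SylowDetect`.
-/

set_option autoImplicit false
set_option linter.style.haveILetI false
set_option linter.unusedSectionVars false

open CategoryTheory Limits

noncomputable section

namespace Fermat.Agent.S55.TateNak43.CritFree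

open Fermat.Agent.S55.TateCrit45

/-! ### Named inputs -/

/-- (I2) the `p`-group core: a `p`-torsion module over a `p`-group with one vanishing Tate group
(in degree `d`) is relatively projective. -/
def PGroupCore (k : Type) [CommRing k] (d : ℤ) : Prop :=
  ∀ (p : ℕ) [Fact p.Prime] (P : Type) [Group P] [Fintype P], IsPGroup p P →
    ∀ M : Rep.{0} k P, (∀ x : M.V, p • x = 0) → IsZero (tateCohomology M d) → IsRelProj M.ρ

/-- (I3) the order of the group kills Tate cohomology. -/
def CardKills (k : Type) [CommRing k] : Prop :=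
  ∀ (H : Type) [Group H] [Fintype H] (X : Rep.{0} k H) (n : ℤ) (x : tateCohomology X n),
    Fintype.card H • x = 0

/-- (I4) Sylow detection of vanishing. -/
def SylowDetect (k : Type) [CommRing k] (G : Type) [Group G] [Fintype G] : Prop :=
  ∀ (A : Rep.{0} k G) (n : ℤ) (H : Subgroup G),
    (∀ (p : ℕ) [Fact p.Prime] (P : Subgroup G), P ≤ H → IsPGroup p P → IsZero (tateSub A P n)) →
      IsZero (tateSub A H n)

/-! ### Relative projectivity for `Q ≤ P` -/

section relproj

variable {k : Type} [CommRing k] {G : Type} [Group G] [Fintype G] {V : Type} [AddCommGroup V]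
  [Module k V] (ρ : Representation k G V)

/-- transport of relative projectivity along a group isomorphism. -/
lemma isRelProj_of_mulEquiv {H H' : Type} [Group H] [Group H'] [Fintype H] [Fintype H']
    (σ : Representation k H' V) (e : H ≃* H') (h : IsRelProj (σ.comp e.toMonoidHom)) :
    IsRelProj σ := by
  obtain ⟨π, hπ⟩ := h
  refine ⟨π, ?_⟩
  rw [← hπ]
  refine (Fintype.sum_equiv e.toEquiv _ _ (fun x => ?_)).symm
  simp

lemma isRelProj_of_le {P Q : Subgroup G} (hQP : Q ≤ P)
    (h : @IsRelProj k P V _ _ (Fintype.ofFinite P) _ _ (ρ.comp P.subtype)) :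
    @IsRelProj k Q V _ _ (Fintype.ofFinite Q) _ _ (ρ.comp Q.subtype) := by
  letI : Fintype P := Fintype.ofFinite P
  letI : Fintype Q := Fintype.ofFinite Q
  letI : Fintype (Q.subgroupOf P) := Fintype.ofFinite _
  have h1 := IsRelProj.comp_subtype (ρ.comp P.subtype) h (Q.subgroupOf P)
  exact isRelProj_of_mulEquiv (ρ.comp Q.subtype) (Subgroup.subgroupOfEquivOfLe hQP) h1

end relproj

/-! ### Acyclicity on all `Q ≤ P` from relative projectivity on `P` -/

section acyclic

variable {k : Type} [CommRing k] {G : Type} [Group G] [Fintype G]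

lemma isZero_tateSub_of_isRelProj_le (hT1 : T1Statement k) (M : Rep.{0} k G) (P : Subgroup G)
    (h : @IsRelProj k P M.V _ _ (Fintype.ofFinite P) _ _ (M.ρ.comp P.subtype))
    {Q : Subgroup G} (hQP : Q ≤ P) (n : ℤ) : IsZero (tateSub M Q n) := by
  letI : Fintype Q := Fintype.ofFinite Q
  exact hT1 Q (Rep.res Q.subtype M) (isRelProj_of_le M.ρ hQP h) n

/-- a `p`-torsion module with `Ĥ^d(P, M) = 0` for a `p`-subgroup `P` is acyclic on every
subgroup of `P`. -/
lemma isZero_tateSub_of_pTorsion {d : ℤ} (hT1 : T1Statement k) (hPG : PGroupCore k d)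
    (p : ℕ) [Fact p.Prime] (P : Subgroup G) (hP : IsPGroup p P) (M : Rep.{0} k G)
    (hp : ∀ x : M.V, p • x = 0) (h : IsZero (tateSub M P d))
    {Q : Subgroup G} (hQP : Q ≤ P) (n : ℤ) : IsZero (tateSub M Q n) := by
  letI : Fintype P := Fintype.ofFinite P
  exact isZero_tateSub_of_isRelProj_le hT1 M P (hPG p P hP (Rep.res P.subtype M) hp h) hQP n

end acyclic

/-! ### The sequence `0 → A → A → A/p → 0` -/

section modp

variable {k : Type} [CommRing k] {G : Type} [Group G] [Fintype G] (A : Rep.{0} k G) (p : ℕ)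

lemma nsmul_id_hom_apply (x : A.V) : ((p • 𝟙 A : A ⟶ A).hom) x = p • x := by
  induction p with
  | zero => simp
  | succ n ih =>
    rw [succ_nsmul, succ_nsmul, Rep.add_hom]
    change (n • 𝟙 A : A ⟶ A).hom x + (𝟙 A : A ⟶ A).hom x = _
    rw [ih]
    rfl

/-- the submodule `pA`. -/
def pRange : Submodule k A.V := LinearMap.range (p • (LinearMap.id : A.V →ₗ[k] A.V))

lemma mem_pRange {x : A.V} : x ∈ pRange A p ↔ ∃ y : A.V, p • y = x := by
  simp [pRange, LinearMap.mem_range]

lemma pRange_le_comap (g : G) : pRange A p ≤ (pRange A p).comap (A.ρ g) := by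
  intro x hx
  obtain ⟨y, rfl⟩ := (mem_pRange A p).1 hx
  exact (mem_pRange A p).2 ⟨A.ρ g y, by rw [map_nsmul]⟩

/-- `A / pA`. -/
abbrev modP : Rep.{0} k G := Rep.quotient A (pRange A p) (pRange_le_comap A p)

lemma modP_torsion (x : (modP A p).V) : p • x = 0 := by
  obtain ⟨a, rfl⟩ := Submodule.mkQ_surjective (pRange A p) x
  rw [← map_nsmul]
  exact (Submodule.Quotient.mk_eq_zero _).2 ((mem_pRange A p).2 ⟨a, rfl⟩)

/-- `0 → A --p--> A → A/p → 0`. -/
def modPSeq : ShortComplex (Rep.{0} k G) where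
  X₁ := A
  X₂ := A
  X₃ := modP A p
  f := p • 𝟙 A
  g := Rep.mkQ A _ (pRange_le_comap A p)
  zero := by
    ext x
    change Submodule.Quotient.mk ((p • 𝟙 A : A ⟶ A).hom x) = 0
    rw [nsmul_id_hom_apply]
    exact (Submodule.Quotient.mk_eq_zero _).2 ((mem_pRange A p).2 ⟨x, rfl⟩)

lemma shortExact_modPSeq (htf : ∀ x : A.V, p • x = 0 → x = 0) : (modPSeq A p).ShortExact := by
  apply shortExact_of
  · intro (x : A.V) (y : A.V) hxy
    have hxy' : p • x = p • y :=
      ((nsmul_id_hom_apply A p x).symm.trans hxy).trans (nsmul_id_hom_apply A p y)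
    have : p • (x - y) = 0 := by rw [smul_sub, hxy', sub_self]
    exact sub_eq_zero.1 (htf _ this)
  · exact Submodule.mkQ_surjective _
  · intro x hx
    obtain ⟨y, hy⟩ := (mem_pRange A p).1 ((Submodule.Quotient.mk_eq_zero _).1 hx)
    refine ⟨y, ?_⟩
    change (p • 𝟙 A : A ⟶ A).hom y = x
    rw [nsmul_id_hom_apply, hy]

end modp

/-! ### The torsion-free case -/

section torsionfree

variable {k : Type} [CommRing k] {G : Type} [Group G] [Fintype G]

instance tateCohomologyFunctor_additive (n : ℤ) :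
    (tateCohomologyFunctor (R := k) (G := G) n).Additive := by
  unfold tateCohomologyFunctor
  infer_instance

lemma eq_zero_of_pdiv {M : Type*} [AddCommGroup M] (p m : ℕ)
    (hsurj : ∀ x : M, ∃ y : M, p • y = x) (hkill : ∀ x : M, p ^ m • x = 0) (x : M) : x = 0 := by
  have key : ∀ j : ℕ, ∀ x : M, ∃ y : M, p ^ j • y = x := by
    intro j
    induction j with
    | zero => intro x; exact ⟨x, by simp⟩
    | succ j ih =>
      intro x
      obtain ⟨y, hy⟩ := ih x
      obtain ⟨z, hz⟩ := hsurj y
      exact ⟨z, by rw [pow_succ, mul_smul, hz, hy]⟩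
  obtain ⟨y, hy⟩ := key m x
  rw [← hy, hkill]

/-- if `Ĥⁿ(Q, A/p) = 0` then `p` is surjective on `Ĥⁿ(Q, A)` (`A` without `p`-torsion). -/
lemma exists_nsmul_eq_of_isZero_modP (A : Rep.{0} k G) (p : ℕ)
    (htf : ∀ x : A.V, p • x = 0 → x = 0) (Q : Subgroup G) (n : ℤ)
    (h3 : IsZero (tateSub (modP A p) Q n)) (x : tateSub A Q n) :
    ∃ y : tateSub A Q n, p • y = x := by
  letI : Fintype Q := Fintype.ofFinite Q
  have hS := shortExact_modPSeq A p htf
  have hex := (TateCohomology.map_tateComplexFunctor_shortExact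
    (shortExact_resSub hS Q)).homology_exact₂ n
  have hepi : Epi ((tateCohomologyFunctor n).map
      ((Rep.resFunctor Q.subtype).map (p • 𝟙 A : A ⟶ A))) :=
    hex.epi_f (h3.eq_of_tgt _ _)
  rw [Functor.map_nsmul, CategoryTheory.Functor.map_id, Functor.map_nsmul,
    CategoryTheory.Functor.map_id] at hepi
  obtain ⟨y, hy⟩ := (ModuleCat.epi_iff_surjective _).1 hepi x
  exact ⟨y, hy⟩

/-- **(O1) torsion-free core.**  `A` without `p`-torsion, `P` a `p`-subgroup with
`Ĥ^d(P, A) = Ĥ^{d+1}(P, A) = 0`: then `A` is acyclic on every subgroup of `P`. -/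
theorem torsionFree_core {d : ℤ} (hT1 : T1Statement k) (hPG : PGroupCore k d)
    (hcard : CardKills k) (p : ℕ) [Fact p.Prime] (P : Subgroup G) (hP : IsPGroup p P)
    (A : Rep.{0} k G) (htf : ∀ x : A.V, p • x = 0 → x = 0)
    (h : IsZero (tateSub A P d) ∧ IsZero (tateSub A P (d + 1)))
    {Q : Subgroup G} (hQP : Q ≤ P) (n : ℤ) : IsZero (tateSub A Q n) := by
  have hS := shortExact_modPSeq A p htf
  -- `Ĥ^d(P, A/p) = 0`
  have hB : IsZero (tateSub (modP A p) P d) := by
    have hm : Mono (δSub hS P d) := mono_δSub hS P d h.1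
    exact @IsZero.of_mono _ _ _ _ _ (δSub hS P d) hm h.2
  -- hence `A/p` is acyclic on all `Q ≤ P`
  have hBQ : IsZero (tateSub (modP A p) Q n) :=
    isZero_tateSub_of_pTorsion hT1 hPG p P hP (modP A p) (modP_torsion A p) hB hQP n
  -- `p` is surjective on `Ĥⁿ(Q, A)`, which is killed by `|Q| = p ^ m`
  letI : Fintype Q := Fintype.ofFinite Q
  have hQ : IsPGroup p Q := hP.to_le hQP
  obtain ⟨m, hm⟩ := hQ.exists_card_eq
  rw [ModuleCat.isZero_iff_subsingleton]
  refine ⟨fun x y => ?_⟩
  have h0 : ∀ z : tateSub A Q n, z = 0 := by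
    apply eq_zero_of_pdiv p m (exists_nsmul_eq_of_isZero_modP A p htf Q n hBQ)
    intro z
    have := hcard Q (Rep.res Q.subtype A) n z
    rwa [← Nat.card_eq_fintype_card, hm] at this
  rw [h0 x, h0 y]

end torsionfree

/-! ### The free cover -/

section cover

variable {k : Type} [CommRing k] {G : Type} [Group G] [Fintype G] (A : Rep.{0} k G)

/-- the free `k`-module on the underlying set of `A`, with trivial action. -/
abbrev freeTriv : Rep.{0} k G := Rep.trivial k G (A.V →₀ k)

/-- evaluation `k^(A) → A`. -/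
def evLin : (A.V →₀ k) →ₗ[k] A.V := Finsupp.linearCombination k (id : A.V → A.V)

@[simp] lemma evLin_single (a : A.V) (c : k) : evLin A (Finsupp.single a c) = c • a := by
  simp [evLin]

/-- the covering map `Fun(G, k^(A)) → A`, `f ↦ ∑ h, ρ h (ev (f h))`. -/
def coverLin : (G → (A.V →₀ k)) →ₗ[k] A.V :=
  ∑ h : G, (A.ρ h) ∘ₗ (evLin A) ∘ₗ (LinearMap.proj h)

lemma coverLin_apply (f : G → (A.V →₀ k)) : coverLin A f = ∑ h : G, A.ρ h (evLin A (f h)) := by
  simp [coverLin, LinearMap.sum_apply]

lemma coverLin_comm (g : G) (f : G → (A.V →₀ k)) :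
    coverLin A (midRep (freeTriv A).ρ g f) = A.ρ g (coverLin A f) := by
  rw [coverLin_apply, coverLin_apply, map_sum]
  refine Fintype.sum_equiv (Equiv.mulLeft g⁻¹) _ _ (fun h => ?_)
  simp only [midRep_apply, Equiv.coe_mulLeft]
  rw [← Module.End.mul_apply, ← map_mul, mul_inv_cancel_left]
  rfl

lemma coverLin_surjective : Function.Surjective (coverLin A) := by
  classical
  intro a
  refine ⟨Pi.single 1 (Finsupp.single a 1), ?_⟩
  rw [coverLin_apply, Finset.sum_eq_single 1]
  · simp
  · intro h _ hh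
    rw [Pi.single_eq_of_ne hh]
    simp
  · intro h1
    exact absurd (Finset.mem_univ _) h1

/-- the cover as a morphism of representations. -/
def cover : mid (freeTriv A) ⟶ A :=
  Rep.ofHom (ρ := midRep (freeTriv A).ρ) (σ := A.ρ) ⟨coverLin A, fun g => by
    apply LinearMap.ext
    intro f
    exact coverLin_comm A g f⟩

lemma ker_cover_le_comap (g : G) :
    LinearMap.ker (coverLin A) ≤ (LinearMap.ker (coverLin A)).comap ((mid (freeTriv A)).ρ g) := by
  intro f hf
  rw [Submodule.mem_comap, LinearMap.mem_ker]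
  rw [LinearMap.mem_ker] at hf
  change coverLin A (midRep (freeTriv A).ρ g f) = 0
  rw [coverLin_comm, hf, map_zero]

/-- the kernel of the cover. -/
abbrev coverKer : Rep.{0} k G :=
  Rep.subrepresentation (mid (freeTriv A)) (LinearMap.ker (coverLin A)) (ker_cover_le_comap A)

/-- `0 → R → Fun(G, k^(A)) → A → 0`. -/
def coverSeq : ShortComplex (Rep.{0} k G) where
  X₁ := coverKer A
  X₂ := mid (freeTriv A)
  X₃ := A
  f := Rep.subtype (mid (freeTriv A)) _ (ker_cover_le_comap A)
  g := cover A
  zero := by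
    ext v
    exact v.2

lemma shortExact_coverSeq : (coverSeq A).ShortExact := by
  apply shortExact_of
  · exact Subtype.val_injective
  · exact coverLin_surjective A
  · intro x hx
    exact ⟨⟨x, hx⟩, rfl⟩

lemma coverKer_torsionFree (p : ℕ) (hk : ∀ c : k, p • c = 0 → c = 0) (x : (coverKer A).V)
    (hx : p • x = 0) : x = 0 := by
  apply Subtype.ext
  funext h
  apply Finsupp.ext
  intro a
  apply hk
  have h1 : ((p • x : (coverKer A).V) : G → (A.V →₀ k)) h a = 0 := by rw [hx]; rfl
  simpa using h1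

/-- **(O2) the `p`-subgroup core.**  `A` arbitrary, `P` a `p`-subgroup with
`Ĥ^{d-1}(P, A) = Ĥ^d(P, A) = 0`: then `A` is acyclic on every subgroup of `P`. -/
theorem pSubgroup_core {d : ℤ} (hT1 : T1Statement k) (hPG : PGroupCore k d)
    (hcard : CardKills k) (p : ℕ) [Fact p.Prime] (hk : ∀ c : k, p • c = 0 → c = 0)
    (P : Subgroup G) (hP : IsPGroup p P)
    (h : IsZero (tateSub A P (d - 1)) ∧ IsZero (tateSub A P d))
    {Q : Subgroup G} (hQP : Q ≤ P) (n : ℤ) : IsZero (tateSub A Q n) := by
  have hS := shortExact_coverSeq A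
  have h2 : CohTrivial (coverSeq A).X₂ := cohTrivial_mid (freeTriv A) hT1
  have hR1 : IsZero (tateSub (coverKer A) P d) := by
    have := (isZero_shift hS h2 P (d - 1)).1 h.1
    rwa [sub_add_cancel] at this
  have hR2 : IsZero (tateSub (coverKer A) P (d + 1)) := (isZero_shift hS h2 P d).1 h.2
  have hR := torsionFree_core hT1 hPG hcard p P hP (coverKer A)
    (coverKer_torsionFree A p hk) ⟨hR1, hR2⟩ hQP (n + 1)
  exact (isZero_shift hS h2 Q n).2 hR

end cover

/-! ### Assembly -/

section assembly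

variable {k : Type} [CommRing k] {G : Type} [Group G] [Fintype G]

/-- twin vanishing in degrees `q, q + 1` on all subgroups. -/
def Twin (A : Rep.{0} k G) (q : ℤ) : Prop :=
  ∀ H : Subgroup G, IsZero (tateSub A H q) ∧ IsZero (tateSub A H (q + 1))

lemma cohTrivial_of_up (hT1 : T1Statement k) (A : Rep.{0} k G) (h : CohTrivial (up A)) :
    CohTrivial A := by
  intro H n
  have := (isZero_tateSub_up A hT1 H (n - 1)).1 (h H (n - 1))
  rwa [sub_add_cancel] at this

lemma cohTrivial_of_down (hT1 : T1Statement k) (A : Rep.{0} k G) (h : CohTrivial (down A)) :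
    CohTrivial A := by
  intro H n
  exact (isZero_tateSub_down A hT1 H n).2 (h H (n + 1))

lemma twin_up (hT1 : T1Statement k) (A : Rep.{0} k G) (q : ℤ) (h : Twin A (q + 1)) :
    Twin (up A) q := fun H =>
  ⟨(isZero_tateSub_up A hT1 H q).2 (h H).1, (isZero_tateSub_up A hT1 H (q + 1)).2 (h H).2⟩

lemma twin_down (hT1 : T1Statement k) (A : Rep.{0} k G) (q : ℤ) (h : Twin A (q - 1)) :
    Twin (down A) q := fun H => by
  refine ⟨?_, ?_⟩
  · have := (isZero_tateSub_down A hT1 H (q - 1)).1 (h H).1
    rwa [sub_add_cancel] at this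
  · have h2 := (h H).2
    rw [sub_add_cancel] at h2
    exact (isZero_tateSub_down A hT1 H q).1 h2

/-- **(O3) the Nakayama-Tate twin criterion**, from the named inputs. -/
theorem cohTrivial_of_twin {d : ℤ} (hT1 : T1Statement k) (hPG : PGroupCore k d)
    (hcard : CardKills k) (hsyl : SylowDetect k G)
    (hk : ∀ (p : ℕ) [Fact p.Prime] (c : k), p • c = 0 → c = 0)
    (q : ℤ) : ∀ A : Rep.{0} k G, Twin A q → CohTrivial A := by
  induction q using Int.inductionOn' (b := d - 1) with
  | zero =>
    intro A h H n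
    refine hsyl A n H (fun p _ P _ hP => ?_)
    exact pSubgroup_core A hT1 hPG hcard p (hk p) P hP
      ⟨(h P).1, by have := (h P).2; rwa [sub_add_cancel] at this⟩ le_rfl n
  | succ j _ ih =>
    intro A h
    exact cohTrivial_of_up hT1 A (ih (up A) (twin_up hT1 A j h))
  | pred j _ ih =>
    intro A h
    exact cohTrivial_of_down hT1 A (ih (down A) (twin_down hT1 A j h))

end assembly

end Fermat.Agent.S55.TateNak43.CritFree

end
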