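import Fermat.Agent.S55.TateNak43.LocalH3
import Fermat.Agent.S55.LocDev51.LFBase
import Fermat.Agent.S55.H3Jq45.Main
import Fermat.Agent.S55.GlobalMod94.H3
import Fermat.Agent.S55.P2Local71.Layer

/-!
# S55 / 11c → 22 / 36b / 52 / P2: everything local-Tate from the ABSOLUTE local class

The single arithmetic input (22a lower bound, absolute case `K = ℚ_q`):

`AbsClass q` : for every finite normal `E : LF q` there is a class in `H²(Gal(E/ℚ_q), Eˣ)` whose
order is divisible by `|Gal(E/ℚ_q)|`.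

From it (pure glue: `TateNak43.LocalH3` + helper51 `LocDev51.isLocalGField_base`):

* `hasFund_of_absClass`      : helper45's `H3Jq45.HasFund ℚ_[q] E` (the local fundamental cocycle);
* `localTateH3_of_absClass`  : helper94's `GlobalMod94.H3.LocalTateH3 q` (hence `H³(V, J_S) = 0`);
* `isZero_H3_res_of_absClass`: `H³(D', Eˣ) = 0` for every subgroup `D' ≤ Gal(E/ℚ_q)`;

The same three consequences are also stated from helper71's literal Prop
`P2Local71.AbsClass' q` (binder `[IsGalois ℚ_[q] E]`, `Module.finrank ℚ_[q] E ∣ addOrderOf x`),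
which is the input of `P2` (`LocDev51.localRightExact_of_absClass'`): ONE producer theorem
`P2Local71.AbsClass' q` closes P2, 36b (`H³(H, Jq) = 0`) and 52 (`H³(V, J_S) = 0`).
-/

set_option autoImplicit false
set_option linter.style.haveILetI false

open CategoryTheory Limits groupCohomology

noncomputable section

namespace Fermat.Agent.S55.TateNak43.LocalAbs

open Fermat.Agent.S55.LocField17 Fermat.Agent.S55.LocDev51

attribute [local instance] Units.mulDistribMulActionRight

variable (q : ℕ) [Fact q.Prime]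

/-- **The one arithmetic input of local Tate**: for every finite normal extension `E` of `ℚ_q`
inside `PadicAlgCl q`, `H²(Gal(E/ℚ_q), Eˣ)` contains a class whose order is divisible by
`|Gal(E/ℚ_q)| = [E : ℚ_q]`. -/
def AbsClass : Prop :=
  ∀ (E : LF q) [FiniteDimensional ℚ_[q] E] [Normal ℚ_[q] E],
    ∃ x : groupCohomology (Rep.ofAlgebraAutOnUnits ℚ_[q] E) 2,
      Nat.card (E ≃ₐ[ℚ_[q]] E) ∣ addOrderOf x

variable {q}

/-- `Gal(E/ℚ_q)` acting on `Eˣ` (Mathlib's `Rep.ofAlgebraAutOnUnits`) is in helper51's local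
class. -/
theorem localClass_abs (E : LF q) [FiniteDimensional ℚ_[q] E] :
    LocalClass (E ≃ₐ[ℚ_[q]] E) (Rep.ofAlgebraAutOnUnits ℚ_[q] E) :=
  ⟨E, inferInstance, inferInstance, isLocalGField_base E, ⟨(unitsRepIsoField ℚ_[q] E).symm⟩⟩

/-- the local fundamental cocycle over `ℚ_q` (helper45's `HasFund`). -/
theorem hasFund_of_absClass (h : AbsClass q) (E : LF q) [FiniteDimensional ℚ_[q] E]
    [Normal ℚ_[q] E] : Fermat.Agent.S55.H3Jq45.HasFund ℚ_[q] E := by
  obtain ⟨x, hx⟩ := h E
  obtain ⟨σ, -, hσ⟩ :=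
    Fermat.Agent.S55.TateNak43.LocalH3.localClass_exists_isFundamentalCocycle
      (localClass_abs E) x hx
  exact ⟨σ, hσ⟩

/-- `H³(D', Eˣ) = 0` for every subgroup `D'` of `Gal(E/ℚ_q)`. -/
theorem isZero_H3_res_of_absClass (h : AbsClass q) (E : LF q) [FiniteDimensional ℚ_[q] E]
    [Normal ℚ_[q] E] (D' : Subgroup (E ≃ₐ[ℚ_[q]] E)) :
    IsZero (groupCohomology (Rep.res D'.subtype (Rep.ofAlgebraAutOnUnits ℚ_[q] E)) 3) :=
  Fermat.Agent.S55.H3Jq45.isZero_H3_resUnits (hasFund_of_absClass h E) D'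

/-- helper94's named input `(H-LT)` of `52-JS-LIMIT` (hence `H³(V, J_S) = 0` for all open `V`). -/
theorem localTateH3_of_absClass (h : AbsClass q) : Fermat.Agent.S55.GlobalMod94.H3.LocalTateH3 q :=
  fun L _ _ D' => isZero_H3_res_of_absClass h (Fermat.Agent.S55.Idele73.Local.Elev q L) D'

/-! ### from helper71's literal `P2Local71.AbsClass'` -/

/-- helper71's `AbsClass'` (Galois binder, `finrank`) gives `AbsClass`. -/
theorem absClass_of_p2 (h : Fermat.Agent.S55.P2Local71.AbsClass' q) : AbsClass q := by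
  intro E _ _
  haveI : IsGalois ℚ_[q] E := ⟨⟩
  obtain ⟨x, hx⟩ := h E
  exact ⟨x, by rwa [IsGalois.card_aut_eq_finrank]⟩

/-- `AbsClass` gives helper71's `AbsClass'`. -/
theorem p2_of_absClass (h : AbsClass q) : Fermat.Agent.S55.P2Local71.AbsClass' q := by
  intro E _ _
  obtain ⟨x, hx⟩ := h E
  exact ⟨x, by rwa [← IsGalois.card_aut_eq_finrank]⟩

/-- helper45's `HasFund` from helper71's `AbsClass'`. -/
theorem hasFund_of_p2 (h : Fermat.Agent.S55.P2Local71.AbsClass' q) (E : LF q)
    [FiniteDimensional ℚ_[q] E] [Normal ℚ_[q] E] : Fermat.Agent.S55.H3Jq45.HasFund ℚ_[q] E :=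
  hasFund_of_absClass (absClass_of_p2 h) E

/-- helper94's `(H-LT)` from helper71's `AbsClass'`. -/
theorem localTateH3_of_p2 (h : Fermat.Agent.S55.P2Local71.AbsClass' q) :
    Fermat.Agent.S55.GlobalMod94.H3.LocalTateH3 q :=
  localTateH3_of_absClass (absClass_of_p2 h)

/-- `H³(H, Jq q L) = 0` for every `H ≤ Gal(L/ℚ)` (36b), from helper71's `AbsClass'`. -/
theorem isZero_H3_Jq_of_p2 (h : Fermat.Agent.S55.P2Local71.AbsClass' q)
    (L : IntermediateField ℚ Fermat.Agent.S55.Idele73.Basic.Qbar) [Normal ℚ L]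
    [FiniteDimensional ℚ L] (H : Subgroup (Fermat.Agent.S55.Idele73.Basic.GalL L)) :
    IsZero (groupCohomology (Rep.res H.subtype (Fermat.Agent.S55.Idele73.Basic.Jq q L)) 3) :=
  Fermat.Agent.S55.H3Jq45.isZero_H3_Jq q L
    (hasFund_of_p2 h (Fermat.Agent.S55.Idele73.Local.Elev q L)) H

end Fermat.Agent.S55.TateNak43.LocalAbs

namespace Fermat.Agent.S55.TateNak43.LocalAbs

open Fermat.Agent.S55.GlobalMod94.JS in
/-- **(H3J)** of the limit formation (52 / 45b): level `H³(V, J_S) = 0` for every open `V ≤ G_ℚ`,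
from helper71's `AbsClass'` at the primes of `S`. -/
theorem h3Vanishes_JSp_of_p2 (S : Finset Nat.Primes)
    (V : Subgroup Fermat.Agent.S55.Idele73.Basic.GQ)
    (hV : Fermat.Agent.S55.CD3.IsOpenSub (Fermat.Agent.S55.Profin15.globalLevels S) V)
    (h : ∀ q : ↥S, Fermat.Agent.S55.P2Local71.AbsClass' ((q : Nat.Primes) : ℕ)) :
    Fermat.Agent.S55.CD3.H3Vanishes
      (Fermat.Agent.S55.CD3.restrictLevels (Fermat.Agent.S55.Profin15.globalLevels S) V hV)
      (Rep.res V.subtype (Fermat.Agent.S55.GlobalMod94.JS.JSp S)).ρ :=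
  Fermat.Agent.S55.GlobalMod94.H3.h3Vanishes_JSp S V hV (fun q => localTateH3_of_p2 (h q))

end Fermat.Agent.S55.TateNak43.LocalAbs

end
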