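import Fermat.Agent.S55.TateNak43.Triv

/-!
# S55 / 11c-TATE-NAKAYAMA, part (M): Tate's theorem

`G` finite, `C : Rep k G`, `σ : cocycles₂ C` such that for every subgroup `H`:
`H¹(H, C) = 0` and `H²(H, C)` is generated by `res σ`, of order (at least) `|H|`
(and `H¹(H, k) = 0`, automatic for `k = ℤ`).  Then for every subgroup `H` and every `n : ℤ`
`Ĥⁿ(H, k) ≅ Ĥⁿ⁺²(H, C)`; the isomorphism is the composite of the two connecting homomorphisms
of `0 → I_G → k[G] → k → 0` and `0 → C → C(σ) → I_G → 0`.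
-/

open CategoryTheory groupCohomology Limits

noncomputable section

namespace Fermat.Agent.S55.TateNak43

section general

variable {k G : Type} [CommRing k] [Group G] [Fintype G]

/-- the connecting homomorphism of Tate cohomology is an isomorphism when the middle term has
vanishing Tate cohomology in the two relevant degrees. -/
theorem isIso_tate_δ {X : ShortComplex (Rep k G)} (hX : X.ShortExact) (n : ℤ)
    (h0 : IsZero (tateCohomology X.X₂ n)) (h1 : IsZero (tateCohomology X.X₂ (n + 1))) :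
    IsIso (TateCohomology.δ hX n) := by
  haveI : Mono (TateCohomology.δ hX n) :=
    (TateCohomology.exact₃ hX n).mono_g (h0.eq_of_src _ _)
  haveI : Epi (TateCohomology.δ hX n) :=
    (TateCohomology.exact₁ hX n).epi_f (h1.eq_of_tgt _ _)
  exact isIso_of_mono_of_epi _

end general

section tate

variable {k G : Type} [CommRing k] [Group G] [Fintype G]
variable (C : Rep k G) (σ : cocycles₂ C)

/-- the first connecting map `Ĥⁿ(H, k) ⟶ Ĥⁿ⁺¹(H, I_G)`. -/
def tateδAug (H : Subgroup G) (n : ℤ) :
    tateSub (Rep.trivial k G k) H n ⟶ tateSub (augRep k G) H (n + 1) :=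
  @TateCohomology.δ k H _ _ (Fintype.ofFinite H) _ (shortExact_augSeqRes (k := k) H) n

/-- the second connecting map `Ĥⁿ(H, I_G) ⟶ Ĥⁿ⁺¹(H, C)`. -/
def tateδSplit (H : Subgroup G) (n : ℤ) :
    tateSub (augRep k G) H n ⟶ tateSub C H (n + 1) :=
  @TateCohomology.δ k H _ _ (Fintype.ofFinite H) _ (shortExact_splitSeqRes C σ H) n

theorem isIso_tateδAug (hreg : RegularStatement k G) (H : Subgroup G) (n : ℤ) :
    IsIso (tateδAug (k := k) H n) :=
  @isIso_tate_δ k H _ _ (Fintype.ofFinite H) _ (shortExact_augSeqRes (k := k) H) n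
    (hreg H n) (hreg H (n + 1))

theorem isIso_tateδSplit (hE : CohTrivial (split C σ)) (H : Subgroup G) (n : ℤ) :
    IsIso (tateδSplit C σ H n) :=
  @isIso_tate_δ k H _ _ (Fintype.ofFinite H) _ (shortExact_splitSeqRes C σ H) n
    (hE H n) (hE H (n + 1))

/-- **Tate's theorem** (splitting module form), as an isomorphism
`Ĥⁿ(H, k) ≅ Ĥⁿ⁺¹⁺¹(H, C)`, from cohomological triviality of `k[G]` and of `C(σ)`. -/
def tateIsoOfCohTrivial (hreg : RegularStatement k G) (hE : CohTrivial (split C σ))
    (H : Subgroup G) (n : ℤ) :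
    tateSub (Rep.trivial k G k) H n ≅ tateSub C H (n + 1 + 1) :=
  haveI := isIso_tateδAug (k := k) hreg H n
  haveI := isIso_tateδSplit C σ hE H (n + 1)
  asIso (tateδAug (k := k) H n) ≪≫ asIso (tateδSplit C σ H (n + 1))

@[simp] lemma tateIsoOfCohTrivial_hom (hreg : RegularStatement k G)
    (hE : CohTrivial (split C σ)) (H : Subgroup G) (n : ℤ) :
    (tateIsoOfCohTrivial C σ hreg hE H n).hom
      = tateδAug (k := k) H n ≫ tateδSplit C σ H (n + 1) := rfl

/-- **Tate's theorem**: the class-formation hypotheses give `Ĥⁿ(H, k) ≅ Ĥⁿ⁺²(H, C)`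
for all subgroups `H` and all `n : ℤ`. -/
def tateIso (hcrit : CritStatement k G) (hreg : RegularStatement k G)
    (hk : ∀ H : Subgroup G, IsZero (groupCohomology (Rep.res H.subtype (Rep.trivial k G k)) 1))
    (h1 : ∀ H : Subgroup G, IsZero (groupCohomology (Rep.res H.subtype C) 1))
    (hgen : ∀ (H : Subgroup G) (x : groupCohomology (Rep.res H.subtype C) 2),
      ∃ a : k, x = a • H2π (Rep.res H.subtype C) (resCocycle C σ H))
    (hord : ∀ (H : Subgroup G) (a : k),
      a • H2π (Rep.res H.subtype C) (resCocycle C σ H) = 0 → ∃ b : k, a = (Nat.card H : k) * b)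
    (H : Subgroup G) (n : ℤ) :
    tateSub (Rep.trivial k G k) H n ≅ tateSub C H (n + 1 + 1) :=
  tateIsoOfCohTrivial C σ hreg (cohTrivial_split hreg C σ hcrit hk h1 hgen hord) H n

/-- `Ĥⁿ(H, k) ≅ Ĥᵐ(H, C)` for `m = n + 2`. -/
def tateIso' (hcrit : CritStatement k G) (hreg : RegularStatement k G)
    (hk : ∀ H : Subgroup G, IsZero (groupCohomology (Rep.res H.subtype (Rep.trivial k G k)) 1))
    (h1 : ∀ H : Subgroup G, IsZero (groupCohomology (Rep.res H.subtype C) 1))
    (hgen : ∀ (H : Subgroup G) (x : groupCohomology (Rep.res H.subtype C) 2),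
      ∃ a : k, x = a • H2π (Rep.res H.subtype C) (resCocycle C σ H))
    (hord : ∀ (H : Subgroup G) (a : k),
      a • H2π (Rep.res H.subtype C) (resCocycle C σ H) = 0 → ∃ b : k, a = (Nat.card H : k) * b)
    (H : Subgroup G) (n m : ℤ) (hm : m = n + 2) :
    tateSub (Rep.trivial k G k) H n ≅ tateSub C H m :=
  tateIso C σ hcrit hreg hk h1 hgen hord H n ≪≫
    eqToIso (by rw [hm, add_assoc]; rfl)

end tate

section int

variable {G : Type} [Group G] [Fintype G]

/-- `H¹(H, ℤ) = 0` for a finite group `H`. -/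
theorem isZero_H1_trivial_int (H : Subgroup G) :
    IsZero (groupCohomology (Rep.res H.subtype (Rep.trivial ℤ G ℤ)) 1) := by
  have : (Rep.res H.subtype (Rep.trivial ℤ G ℤ)).IsTrivial := ⟨fun g => rfl⟩
  refine IsZero.of_iso ?_ (H1IsoOfIsTrivial (Rep.res H.subtype (Rep.trivial ℤ G ℤ)))
  rw [ModuleCat.isZero_of_iff_subsingleton]
  refine ⟨fun f f' => ?_⟩
  suffices h : ∀ f : Additive H →+ ℤ, f = 0 by rw [h f, h f']
  intro f
  ext x
  have hx : (Nat.card H) • (Additive.ofMul x) = 0 := by
    have := pow_card_eq_one' (G := H) (x := x)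
    exact congrArg Additive.ofMul this
  have : (Nat.card H : ℤ) * f (Additive.ofMul x) = 0 := by
    have h2 := congrArg f hx
    rw [map_nsmul, map_zero] at h2
    simpa using h2
  rcases mul_eq_zero.1 this with h | h
  · exact absurd h (by exact_mod_cast (Nat.card_pos (α := H)).ne')
  · exact h

/-- the class-formation hypotheses on `(C, σ)` (general coefficient ring `k`):
`H¹(H, C) = 0`, and `H²(H, C)` is generated by `res σ` whose annihilator is `|H| k`
(only the inclusion `⊆` is needed). -/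
structure IsFundamentalCocycle {k : Type} [CommRing k] (C : Rep k G) (σ : cocycles₂ C) :
    Prop where
  h1 : ∀ H : Subgroup G, IsZero (groupCohomology (Rep.res H.subtype C) 1)
  hgen : ∀ (H : Subgroup G) (x : groupCohomology (Rep.res H.subtype C) 2),
    ∃ a : k, x = a • H2π (Rep.res H.subtype C) (resCocycle C σ H)
  hord : ∀ (H : Subgroup G) (a : k),
    a • H2π (Rep.res H.subtype C) (resCocycle C σ H) = 0 → ∃ b : k, a = (Nat.card H : k) * b

/-- the splitting module of a fundamental cocycle is cohomologically trivial (over `ℤ`). -/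
theorem cohTrivial_split_int (C : Rep ℤ G) (σ : cocycles₂ C)
    (hcrit : CritStatement ℤ G) (hreg : RegularStatement ℤ G)
    (hσ : IsFundamentalCocycle C σ) : CohTrivial (split C σ) :=
  cohTrivial_split hreg C σ hcrit isZero_H1_trivial_int hσ.h1 hσ.hgen hσ.hord

/-- **Tate's theorem over `ℤ`**: if `H¹(H, C) = 0` and `H²(H, C)` is cyclic of order `|H|`
generated by the restriction of `σ`, for every subgroup `H`, then
`Ĥⁿ(H, ℤ) ≅ Ĥⁿ⁺²(H, C)` for all `H` and all `n : ℤ`. -/
def tateIsoInt (C : Rep ℤ G) (σ : cocycles₂ C)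
    (hcrit : CritStatement ℤ G) (hreg : RegularStatement ℤ G)
    (hσ : IsFundamentalCocycle C σ) (H : Subgroup G) (n m : ℤ) (hm : m = n + 2) :
    tateSub (Rep.trivial ℤ G ℤ) H n ≅ tateSub C H m :=
  tateIso' C σ hcrit hreg isZero_H1_trivial_int hσ.h1 hσ.hgen hσ.hord H n m hm

end int

end Fermat.Agent.S55.TateNak43

end
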