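import Mathlib

/-!
# S55 / 11c-TATE-NAKAYAMA, part (S): the splitting module of a 2-cocycle

`G` finite group, `k` a commutative ring, `C : Rep k G`, `σ : cocycles₂ C`.  We build
* `funRep k G`: the regular representation on functions `G → k` (left translation),
* `augRep k G`: the augmentation ideal `I_G = {x | ∑ x = 0}`,
* `split C σ`: the splitting module `C(σ) = C × I_G` with
  `g • (c, x) = (g c + ∑ h, x h • σ (g, h), g x)`,
and the two short exact sequences `0 → I_G → k[G] → k → 0`, `0 → C → C(σ) → I_G → 0`.
-/

open CategoryTheory groupCohomology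

namespace Fermat.Agent.S55.TateNak43

variable (k : Type) [CommRing k] (G : Type) [Group G]

/-- the regular representation on functions, `(g • f) h = f (g⁻¹ h)`. -/
def funRepresentation : Representation k G (G → k) where
  toFun g := LinearMap.funLeft k k (fun h => g⁻¹ * h)
  map_one' := by
    ext f h
    simp [LinearMap.funLeft_apply]
  map_mul' g g' := by
    ext f h
    simp [LinearMap.funLeft_apply, mul_assoc]

@[simp] lemma funRepresentation_apply (g : G) (f : G → k) (h : G) :
    funRepresentation k G g f h = f (g⁻¹ * h) := rfl

/-- `k[G]` as functions. -/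
noncomputable def funRep : Rep k G := Rep.of (funRepresentation k G)

variable [Fintype G]

/-- the augmentation `(G → k) → k`. -/
def sumMap : (G → k) →ₗ[k] k := ∑ h : G, LinearMap.proj h

omit [Group G] in
@[simp] lemma sumMap_apply (f : G → k) : sumMap k G f = ∑ h, f h := by
  simp [sumMap, LinearMap.sum_apply]

lemma sumMap_funRepresentation (g : G) (f : G → k) :
    sumMap k G (funRepresentation k G g f) = sumMap k G f := by
  simp only [sumMap_apply, funRepresentation_apply]
  exact Fintype.sum_equiv (Equiv.mulLeft g⁻¹) _ _ (fun _ => rfl)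

/-- the augmentation ideal as a submodule of `G → k`. -/
def augSub : Submodule k (G → k) := LinearMap.ker (sumMap k G)

omit [Group G] in
lemma mem_augSub {f : G → k} : f ∈ augSub k G ↔ ∑ h, f h = 0 := by
  simp [augSub, LinearMap.mem_ker]

lemma funRepresentation_mem_augSub (g : G) {f : G → k} (hf : f ∈ augSub k G) :
    funRepresentation k G g f ∈ augSub k G := by
  rw [augSub, LinearMap.mem_ker] at hf ⊢
  rw [sumMap_funRepresentation, hf]

/-- the representation on the augmentation ideal. -/
def augRepresentation : Representation k G (augSub k G) where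
  toFun g := (funRepresentation k G g).restrict
    (fun _ hf => funRepresentation_mem_augSub k G g hf)
  map_one' := by
    ext f
    simp
  map_mul' g g' := by
    ext f
    simp

@[simp] lemma augRepresentation_coe (g : G) (x : augSub k G) :
    ((augRepresentation k G g x : augSub k G) : G → k) = funRepresentation k G g x := rfl

/-- `I_G` as a representation. -/
noncomputable def augRep : Rep k G := Rep.of (augRepresentation k G)

section split

variable {k G}
variable (C : Rep k G) (σ : cocycles₂ C)

/-- `x ↦ ∑ h, x h • σ (g, h)` on the augmentation ideal. -/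
def twist (g : G) : augSub k G →ₗ[k] C.V :=
  ∑ h : G, (LinearMap.toSpanSingleton k C.V ((σ : G × G → C.V) (g, h))).comp
    ((LinearMap.proj h).comp (augSub k G).subtype)

lemma twist_apply (g : G) (x : augSub k G) :
    twist C σ g x = ∑ h : G, (x : G → k) h • (σ : G × G → C.V) (g, h) := by
  simp [twist, LinearMap.sum_apply]

lemma twist_one (x : augSub k G) : twist C σ 1 x = 0 := by
  rw [twist_apply]
  have h1 : ∀ h : G, (σ : G × G → C.V) (1, h) = (σ : G × G → C.V) (1, 1) :=
    fun h => cocycles₂_map_one_fst σ h
  simp_rw [h1, ← Finset.sum_smul]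
  rw [(mem_augSub k G).1 x.2, zero_smul]

lemma twist_mul (g g' : G) (x : augSub k G) :
    twist C σ (g * g') x
      = C.ρ g (twist C σ g' x) + twist C σ g (augRepresentation k G g' x) := by
  simp only [twist_apply, map_sum, map_smul, augRepresentation_coe, funRepresentation_apply]
  have hre : ∑ h : G, (x : G → k) (g'⁻¹ * h) • (σ : G × G → C.V) (g, h)
      = ∑ j : G, (x : G → k) j • (σ : G × G → C.V) (g, g' * j) := by
    refine Fintype.sum_equiv (Equiv.mulLeft g'⁻¹) _ _ (fun h => ?_)
    simp
  rw [hre, ← Finset.sum_add_distrib]
  have hc : ∀ j : G, (σ : G × G → C.V) (g * g', j) + (σ : G × G → C.V) (g, g')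
      = C.ρ g ((σ : G × G → C.V) (g', j)) + (σ : G × G → C.V) (g, g' * j) :=
    fun j => (mem_cocycles₂_iff (σ : G × G → C.V)).1 σ.2 g g' j
  have : ∑ j : G, ((x : G → k) j • C.ρ g ((σ : G × G → C.V) (g', j))
        + (x : G → k) j • (σ : G × G → C.V) (g, g' * j))
      = ∑ j : G, ((x : G → k) j • (σ : G × G → C.V) (g * g', j)
        + (x : G → k) j • (σ : G × G → C.V) (g, g')) := by
    refine Finset.sum_congr rfl (fun j _ => ?_)
    rw [← smul_add, ← smul_add, hc j]
  rw [this, Finset.sum_add_distrib, ← Finset.sum_smul, (mem_augSub k G).1 x.2, zero_smul, add_zero]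

/-- the action of `g` on the splitting module `C × I_G`. -/
def splitAct (g : G) : (C.V × augSub k G) →ₗ[k] (C.V × augSub k G) :=
  LinearMap.prod
    ((C.ρ g).comp (LinearMap.fst k C.V (augSub k G))
      + (twist C σ g).comp (LinearMap.snd k C.V (augSub k G)))
    ((augRepresentation k G g).comp (LinearMap.snd k C.V (augSub k G)))

@[simp] lemma splitAct_apply (g : G) (p : C.V × augSub k G) :
    splitAct C σ g p = (C.ρ g p.1 + twist C σ g p.2, augRepresentation k G g p.2) := rfl

/-- the representation on the splitting module. -/
def splitRepresentation : Representation k G (C.V × augSub k G) where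
  toFun g := splitAct C σ g
  map_one' := by
    apply LinearMap.ext
    intro p
    simp [twist_one]
  map_mul' g g' := by
    apply LinearMap.ext
    intro p
    simp only [splitAct_apply, Module.End.mul_apply, map_mul, map_add]
    rw [twist_mul]
    ext <;> simp [add_assoc]

/-- the splitting module `C(σ)`. -/
noncomputable def split : Rep k G := Rep.of (splitRepresentation C σ)

end split

section sequences

variable {k G}

/-- exactness of a short complex of representations, checked on underlying functions. -/
lemma shortExact_of_functions {S : ShortComplex (Rep k G)}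
    (hinj : Function.Injective S.f.hom) (hsurj : Function.Surjective S.g.hom)
    (hex : ∀ x : S.X₂, S.g.hom x = 0 → ∃ y : S.X₁, S.f.hom y = x) : S.ShortExact where
  exact := by
    rw [← ShortComplex.exact_map_iff_of_faithful S (forget₂ (Rep k G) (ModuleCat k)),
      ShortComplex.moduleCat_exact_iff]
    intro x hx
    exact hex x hx
  mono_f := (Rep.mono_iff_injective _).2 hinj
  epi_g := (Rep.epi_iff_surjective _).2 hsurj

variable (k G)

/-- the inclusion `I_G ⟶ k[G]`. -/
noncomputable def augIncl : augRep k G ⟶ funRep k G :=
  Rep.ofHom ⟨(augSub k G).subtype, fun g => by ext x; rfl⟩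

/-- the augmentation `k[G] ⟶ k`. -/
noncomputable def augmentation : funRep k G ⟶ Rep.trivial k G k :=
  Rep.ofHom ⟨sumMap k G, fun g => by
    apply LinearMap.ext
    intro f
    exact sumMap_funRepresentation k G g f⟩

@[simp] lemma augIncl_apply (x : augSub k G) : (augIncl k G).hom x = (x : G → k) := rfl

@[simp] lemma augmentation_apply (f : G → k) : (augmentation k G).hom f = ∑ h, f h :=
  sumMap_apply k G f

/-- the short complex `I_G ⟶ k[G] ⟶ k`. -/
noncomputable def augSeq : ShortComplex (Rep k G) :=
  ShortComplex.mk (augIncl k G) (augmentation k G) (by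
    ext x
    exact x.2)

lemma shortExact_augSeq : (augSeq k G).ShortExact := by
  classical
  refine shortExact_of_functions ?_ ?_ ?_
  · intro x y h
    exact Subtype.ext h
  · intro (a : k)
    refine ⟨(Pi.single 1 a : G → k), ?_⟩
    change (augmentation k G).hom (Pi.single 1 a : G → k) = a
    rw [augmentation_apply]
    simp
  · intro (x : G → k) hx
    exact ⟨⟨x, hx⟩, rfl⟩

variable {k G} (C : Rep k G) (σ : cocycles₂ C)

/-- the inclusion `C ⟶ C(σ)`. -/
noncomputable def splitInl : C ⟶ split C σ :=
  Rep.ofHom (ρ := C.ρ) (σ := splitRepresentation C σ) ⟨LinearMap.inl k C.V (augSub k G), fun g => by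
    apply LinearMap.ext
    intro c
    change ((C.ρ g c, (0 : augSub k G)) : C.V × augSub k G) = splitAct C σ g (c, 0)
    simp⟩

/-- the projection `C(σ) ⟶ I_G`. -/
noncomputable def splitSnd : split C σ ⟶ augRep k G :=
  Rep.ofHom (ρ := splitRepresentation C σ) (σ := augRepresentation k G)
    ⟨LinearMap.snd k C.V (augSub k G), fun g => by
      apply LinearMap.ext
      intro p
      rfl⟩

@[simp] lemma splitInl_apply (c : C.V) : (splitInl C σ).hom c = ((c, 0) : C.V × augSub k G) := rfl

@[simp] lemma splitSnd_apply (p : C.V × augSub k G) : (splitSnd C σ).hom p = p.2 := rfl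

/-- the short complex `C ⟶ C(σ) ⟶ I_G`. -/
noncomputable def splitSeq : ShortComplex (Rep k G) :=
  ShortComplex.mk (splitInl C σ) (splitSnd C σ) (by
    ext c
    rfl)

lemma shortExact_splitSeq : (splitSeq C σ).ShortExact := by
  refine shortExact_of_functions ?_ ?_ ?_
  · intro x y h
    exact (Prod.ext_iff.1 h).1
  · intro (x : augSub k G)
    exact ⟨((0, x) : C.V × augSub k G), rfl⟩
  · intro (p : C.V × augSub k G) hp
    refine ⟨p.1, ?_⟩
    change ((p.1, (0 : augSub k G)) : C.V × augSub k G) = p
    ext1
    · rfl
    · exact (show p.2 = 0 from hp).symm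

end sequences

end Fermat.Agent.S55.TateNak43
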